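import Mathlib
import Fermat.Prelude.Def_ModularCurve_X0ModL
import Fermat.Agent.Igusa.RatLocal
import Fermat.Agent.Series.AlmostIntegral

/-!
# Laurent series with `ℓ`-integral coefficients

The subring of `ℚ((q))` of series with coefficients in `ℤ_(ℓ)`, its reductions, and the fact that
it contains every element of the fields we use which is integral over it.
-/

set_option autoImplicit false

noncomputable section

namespace Fermat.Agent.Igusa

open ModularCurve Polynomial

variable (ℓ : ℕ) [hℓ : Fact ℓ.Prime]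

/-- Series with coefficients in `ℤ_(ℓ)`. -/
def intSeries : Subring (LaurentSeries ℚ) :=
  (coeffMap (GaloisRep.ratLocalizedAt ℓ).subtype).range

variable {ℓ}

omit hℓ in
/-- `intSeries ℓ` consists of the series with all coefficients in `ℤ_(ℓ)`. -/
theorem mem_intSeries_iff {x : LaurentSeries ℚ} :
    x ∈ intSeries ℓ ↔ ∀ n, x.coeff n ∈ GaloisRep.ratLocalizedAt ℓ := by
  constructor
  · rintro ⟨y, rfl⟩ n
    rw [coeffMap_coeff]
    exact (y.coeff n).2
  · intro h
    refine ⟨⟨fun n => ⟨x.coeff n, h n⟩, x.isPWO_support.mono ?_⟩, ?_⟩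
    · intro n hn
      simp only [Function.mem_support, HahnSeries.mem_support, ne_eq] at hn ⊢
      exact fun h0 => hn (Subtype.ext h0)
    · ext n; rfl

variable (ℓ) in
/-- An integral series as a series over `ℤ_(ℓ)`. -/
def intLift : intSeries ℓ ≃+* LaurentSeries (GaloisRep.ratLocalizedAt ℓ) :=
  (RingEquiv.ofBijective (coeffMap (GaloisRep.ratLocalizedAt ℓ).subtype).rangeRestrict
    ⟨fun x y h => HahnSeries.ext (funext fun n => Subtype.ext (by
        simpa using congrArg (fun z => z.1.coeff n) h)),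
      RingHom.rangeRestrict_surjective _⟩).symm

omit hℓ in
theorem coe_coeff_intLift (x : intSeries ℓ) (n : ℤ) :
    (((intLift ℓ x).coeff n : GaloisRep.ratLocalizedAt ℓ) : ℚ) = x.1.coeff n :=
  congrArg (fun z : intSeries ℓ => z.1.coeff n) ((intLift ℓ).symm_apply_apply x)

variable (ℓ) in
/-- Coefficientwise reduction of integral series to a field of characteristic `ℓ`. -/
def redSeries (K : Type*) [Field K] [CharP K ℓ] : intSeries ℓ →+* LaurentSeries K :=
  (coeffMap (ratLocalToField (ℓ := ℓ) K)).comp (intLift ℓ).toRingHom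

/-- Series are reduced coefficientwise. -/
theorem coeff_redSeries (K : Type*) [Field K] [CharP K ℓ] (x : intSeries ℓ) (n : ℤ) :
    (redSeries ℓ K x).coeff n =
      ratLocalToField (ℓ := ℓ) K ⟨x.1.coeff n, mem_intSeries_iff.mp x.2 n⟩ :=
  congrArg (ratLocalToField (ℓ := ℓ) K) (Subtype.ext (coe_coeff_intLift x n))

theorem redSeries_eq_liftK (K : Type*) [Field K] [CharP K ℓ] [Algebra (ZMod ℓ) K]
    (x : intSeries ℓ) :
    redSeries ℓ K x = coeffMap (algebraMap (ZMod ℓ) K) (redSeries ℓ (ZMod ℓ) x) := by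
  ext n
  rw [coeffMap_coeff, coeff_redSeries, coeff_redSeries]
  exact congrArg (fun φ : GaloisRep.ratLocalizedAt ℓ →+* K => φ _)
    (ringHom_ratLocal_ext (ratLocalToField (ℓ := ℓ) K)
      ((algebraMap (ZMod ℓ) K).comp (ratLocalToField (ℓ := ℓ) (ZMod ℓ))))

/-- An integral series which vanishes mod `ℓ` is `ℓ` times an integral series. -/
theorem exists_eq_mul_of_redSeries_eq_zero {x : intSeries ℓ}
    (h : redSeries ℓ (ZMod ℓ) x = 0) : ∃ y : intSeries ℓ, x = (ℓ : intSeries ℓ) * y := by
  have hn : ∀ n, ∃ y, (⟨x.1.coeff n, mem_intSeries_iff.mp x.2 n⟩ : GaloisRep.ratLocalizedAt ℓ) =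
      (ℓ : GaloisRep.ratLocalizedAt ℓ) * y := by
    intro n
    refine exists_eq_mul_of_redHom_eq_zero ?_
    have := congrArg (fun z => z.coeff n) h
    simp only [coeff_redSeries, HahnSeries.coeff_zero] at this
    exact this
  choose y hy using hn
  have hℓq : (ℓ : ℚ) ≠ 0 := by exact_mod_cast hℓ.out.ne_zero
  have hval : ∀ n, x.1.coeff n = (ℓ : ℚ) * (y n : ℚ) := by
    intro n
    have := congrArg Subtype.val (hy n)
    push_cast at this
    exact this
  set z : LaurentSeries ℚ := HahnSeries.single 0 (ℓ : ℚ)⁻¹ * x.1 with hz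
  have hzc : ∀ n, z.coeff n = (y n : ℚ) := by
    intro n
    rw [hz, HahnSeries.coeff_single_zero_mul, hval]
    field_simp
  refine ⟨⟨z, mem_intSeries_iff.mpr fun n => by rw [hzc]; exact (y n).2⟩, Subtype.ext ?_⟩
  push_cast
  rw [hz, ← mul_assoc, ← map_natCast (HahnSeries.C : ℚ →+* LaurentSeries ℚ)]
  rw [HahnSeries.C_apply, HahnSeries.single_mul_single, mul_inv_cancel₀ hℓq, add_zero]
  simp

omit hℓ in
theorem exists_den_of_mem_adjoin {S : Set (LaurentSeries ℚ)}
    (hS : ∀ s ∈ S, s ∈ intSeries ℓ) {z : LaurentSeries ℚ}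
    (hz : z ∈ IntermediateField.adjoin ℚ S) :
    ∃ d ∈ intSeries ℓ, d ≠ 0 ∧ d * z ∈ intSeries ℓ := by
  induction hz using IntermediateField.adjoin_induction with
  | mem x hx => exact ⟨1, one_mem _, one_ne_zero, by simpa using hS x hx⟩
  | algebraMap c =>
    refine ⟨(c.den : LaurentSeries ℚ), natCast_mem _ _, ?_, ?_⟩
    · rw [← map_natCast (algebraMap ℚ (LaurentSeries ℚ)), _root_.map_ne_zero]
      exact_mod_cast c.den_ne_zero
    · rw [← map_natCast (algebraMap ℚ (LaurentSeries ℚ)), ← map_mul]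
      rw [show (c.den : ℚ) * c = (c.num : ℚ) by rw [mul_comm]; exact_mod_cast Rat.mul_den_eq_num c,
        map_intCast]
      exact intCast_mem _ _
  | add x y _ _ hx hy =>
    obtain ⟨a, ha, ha0, hax⟩ := hx
    obtain ⟨b, hb, hb0, hby⟩ := hy
    refine ⟨a * b, mul_mem ha hb, mul_ne_zero ha0 hb0, ?_⟩
    rw [show a * b * (x + y) = b * (a * x) + a * (b * y) by ring]
    exact add_mem (mul_mem hb hax) (mul_mem ha hby)
  | inv x _ hx =>
    obtain ⟨a, ha, ha0, hax⟩ := hx
    rcases eq_or_ne x 0 with rfl | hx0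
    · exact ⟨1, one_mem _, one_ne_zero, by simp [zero_mem]⟩
    · exact ⟨a * x, hax, mul_ne_zero ha0 hx0, by rwa [mul_assoc, mul_inv_cancel₀ hx0, mul_one]⟩
  | mul x y _ _ hx hy =>
    obtain ⟨a, ha, ha0, hax⟩ := hx
    obtain ⟨b, hb, hb0, hby⟩ := hy
    refine ⟨a * b, mul_mem ha hb, mul_ne_zero ha0 hb0, ?_⟩
    rw [show a * b * (x * y) = (a * x) * (b * y) by ring]
    exact mul_mem hax hby

/-- If all `c * x ^ n` are integral series, with `c ≠ 0`, then `x` is an integral series. -/
theorem mem_intSeries_of_almostIntegral {c x : LaurentSeries ℚ} (hc : c ≠ 0)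
    (h : ∀ n : ℕ, c * x ^ n ∈ intSeries ℓ) : x ∈ intSeries ℓ :=
  mem_intSeries_iff.mpr <| Series.coeff_mem_of_almost_integral
    (fun _ _ hc' h' => mem_ratLocalizedAt_of_forall_pow hc' h') hc
    fun n => mem_intSeries_iff.mp (h n)

/-- Elements with integral denominators which are integral over integral series are integral. -/
theorem mem_intSeries_of_isIntegral {A : Type*} [CommRing A] [Algebra A (LaurentSeries ℚ)]
    (hA : ∀ a : A, algebraMap A (LaurentSeries ℚ) a ∈ intSeries ℓ) {x d : LaurentSeries ℚ}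
    (hd : d ∈ intSeries ℓ) (hd0 : d ≠ 0) (hdx : d * x ∈ intSeries ℓ) (hx : IsIntegral A x) :
    x ∈ intSeries ℓ := by
  obtain ⟨p, hp, hpx⟩ := hx
  set D := p.natDegree with hD
  refine mem_intSeries_of_almostIntegral (c := d ^ D) (pow_ne_zero _ hd0) fun n => ?_
  induction n using Nat.strong_induction_on with
  | _ n ih =>
    rcases le_or_gt n D with hn | hn
    · obtain ⟨r, hr⟩ := Nat.exists_eq_add_of_le hn
      rw [hr, pow_add, show d ^ n * d ^ r * x ^ n = d ^ r * (d * x) ^ n by ring]
      exact mul_mem (pow_mem hd _) (pow_mem hdx _)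
    · obtain ⟨r, hr⟩ := Nat.exists_eq_add_of_le hn.le
      have hsum : x ^ D = -∑ i ∈ Finset.range D, algebraMap A _ (p.coeff i) * x ^ i := by
        rw [eval₂_eq_sum_range, Finset.sum_range_succ, ← hD, hp.coeff_natDegree, map_one,
          one_mul] at hpx
        linear_combination hpx
      rw [hr, pow_add, hsum, neg_mul, Finset.sum_mul, mul_neg, Finset.mul_sum]
      refine neg_mem (sum_mem fun i hi => ?_)
      rw [show d ^ D * (algebraMap A (LaurentSeries ℚ) (p.coeff i) * x ^ i * x ^ r) =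
        algebraMap A (LaurentSeries ℚ) (p.coeff i) * (d ^ D * x ^ (i + r)) by ring]
      refine mul_mem (hA _) (ih _ ?_)
      have := Finset.mem_range.mp hi
      omega

end Fermat.Agent.Igusa

end
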