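import Mathlib
import Fermat.Prelude.Def_ModularCurve_IgusaScheme
import Fermat.Agent.Igusa.IntSeries
import Fermat.Agent.Igusa.LaurentExt

/-!
# The `q`-expansion principle for the charts of the Igusa scheme (algebraic part)

If a basis of the function field over the line reduces to an independent family mod `ℓ`, then a
chart element all of whose coefficients vanish mod `ℓ` is divisible by `ℓ` in the chart.

The main theorem is `exists_eq_mul_of_mem_chartAlg`.
-/

set_option autoImplicit false

noncomputable section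

namespace Fermat.Agent.Igusa

open ModularCurve ModularCurve.IgusaScheme Polynomial

/-! ### Denominators and evaluation -/

/-- Finitely many rational polynomials have a common denominator. -/
theorem exists_clear_denominators {ι : Type*} [Finite ι] (f : ι → ℚ[X]) :
    ∃ D : ℤ, D ≠ 0 ∧ ∀ i, ∃ p : ℤ[X], p.map (Int.castRingHom ℚ) = C (D : ℚ) * f i := by
  classical
  cases nonempty_fintype ι
  have h : ∀ i, ∃ D : ℤ, D ≠ 0 ∧ ∃ p : ℤ[X], p.map (Int.castRingHom ℚ) = C (D : ℚ) * f i := by
    intro i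
    obtain ⟨b, hb, hb'⟩ := IsLocalization.integerNormalization_spec (nonZeroDivisors ℤ) (f i)
    refine ⟨b, nonZeroDivisors.ne_zero hb,
      IsLocalization.integerNormalization (nonZeroDivisors ℤ) (f i), ?_⟩
    rw [← algebraMap_int_eq, hb', ← Polynomial.smul_eq_C_mul, Int.cast_smul_eq_zsmul]
  choose D hD p hp using h
  refine ⟨∏ i, D i, Finset.prod_ne_zero_iff.mpr fun i _ => hD i, fun i => ?_⟩
  refine ⟨C (∏ j ∈ Finset.univ.erase i, D j) * p i, ?_⟩
  rw [Polynomial.map_mul, map_C, hp i, ← mul_assoc, ← C_mul, eq_intCast, ← Int.cast_mul,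
    Finset.prod_erase_mul _ _ (Finset.mem_univ i)]

/-- Evaluation of an integer polynomial. -/
def evZ {A : Type*} [CommRing A] (s : A) : ℤ[X] →+* A := eval₂RingHom (Int.castRingHom A) s

theorem map_evZ {A B : Type*} [CommRing A] [CommRing B] (f : A →+* B) (s : A) (p : ℤ[X]) :
    f (evZ s p) = evZ (f s) p := by
  rw [evZ, evZ, coe_eval₂RingHom, coe_eval₂RingHom, hom_eval₂]
  congr 1
  exact RingHom.ext_int _ _

theorem evZ_eq_aeval {B A : Type*} [CommRing B] [CommRing A] [Algebra B A] (s : A) (p : ℤ[X]) :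
    evZ s p = aeval s (p.map (Int.castRingHom B)) := by
  rw [evZ, coe_eval₂RingHom, aeval_def, eval₂_map]
  congr 1
  exact RingHom.ext_int _ _

theorem evZ_natCast {A : Type*} [CommRing A] (s : A) (n : ℕ) :
    evZ s (C (n : ℤ)) = (n : A) := by
  rw [evZ, coe_eval₂RingHom, eval₂_C, map_natCast]

/-! ### Primitive relations -/

section Content

variable {ℓ : ℕ} [hℓ : Fact ℓ.Prime] {ι : Type*} [Fintype ι]

theorem redSeries_evZ (K : Type*) [Field K] [CharP K ℓ] (s : intSeries ℓ) (h : ℤ[X]) :
    redSeries ℓ K (evZ s h) = aeval (redSeries ℓ K s) (h.map (Int.castRingHom K)) := by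
  rw [map_evZ, ← evZ_eq_aeval]

/-- A relation with coefficients in `ℤ[s]` can be made primitive at `ℓ`. -/
theorem exists_primitive_relation {s : intSeries ℓ} {e : ι → intSeries ℓ}
    (hind : PolyIndep (redSeries ℓ (ZMod ℓ) s) (fun i => redSeries ℓ (ZMod ℓ) (e i)))
    (z : intSeries ℓ) (P : ℤ[X]) (hP : P ≠ 0) (g : ι → ℤ[X])
    (heq : evZ s P * z = ∑ i, evZ s (g i) * e i) :
    ∃ h : ℤ[X], h.map (Int.castRingHom (ZMod ℓ)) ≠ 0 ∧
      ∃ g' : ι → ℤ[X], evZ s h * z = ∑ i, evZ s (g' i) * e i := by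
  induction hn : P.leadingCoeff.natAbs using Nat.strong_induction_on generalizing P g with
  | _ n ih =>
  by_cases hP0 : P.map (Int.castRingHom (ZMod ℓ)) = 0
  swap
  · exact ⟨P, hP0, g, heq⟩
  have hdiv : ∀ p : ℤ[X], p.map (Int.castRingHom (ZMod ℓ)) = 0 → C (ℓ : ℤ) ∣ p := by
    intro p hp
    rw [C_dvd_iff_dvd_coeff]
    intro i
    have := congrArg (fun q => q.coeff i) hp
    simp only [coeff_map, eq_intCast, coeff_zero] at this
    exact (ZMod.intCast_zmod_eq_zero_iff_dvd _ _).mp this
  have hg0 : ∀ i, (g i).map (Int.castRingHom (ZMod ℓ)) = 0 := by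
    refine congrFun (polyIndep_iff.mp hind (fun i => (g i).map (Int.castRingHom (ZMod ℓ))) ?_)
    have := congrArg (redSeries ℓ (ZMod ℓ)) heq
    rw [map_mul, redSeries_evZ, hP0, map_zero, zero_mul, map_sum] at this
    simp only [map_mul, redSeries_evZ] at this
    exact this.symm
  obtain ⟨P', rfl⟩ := hdiv P hP0
  choose g' hg' using fun i => hdiv (g i) (hg0 i)
  have hℓne : ((ℓ : ℕ) : intSeries ℓ) ≠ 0 := by
    intro h0
    have := congrArg Subtype.val h0
    push_cast at this
    rw [← map_natCast (algebraMap ℚ (LaurentSeries ℚ)), map_eq_zero] at this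
    exact hℓ.out.ne_zero (by exact_mod_cast this)
  have heq' : evZ s P' * z = ∑ i, evZ s (g' i) * e i := by
    refine mul_left_cancel₀ hℓne ?_
    have := heq
    simp only [hg', map_mul, evZ_natCast, mul_assoc, ← Finset.mul_sum] at this
    exact this
  have hP' : P' ≠ 0 := fun h0 => hP (by rw [h0, mul_zero])
  refine ih _ ?_ P' hP' g' heq' rfl
  rw [← hn, leadingCoeff_mul, leadingCoeff_C, Int.natAbs_mul, Int.natAbs_natCast]
  exact lt_mul_of_one_lt_left (Int.natAbs_pos.mpr (leadingCoeff_ne_zero.mpr hP')) hℓ.out.one_lt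

end Content

/-! ### Chart elements -/

section Chart

variable {N : ℕ} [NeZero N] {ℓ : ℕ} [hℓ : Fact ℓ.Prime]

omit [NeZero N] hℓ in
theorem coe_algebraMap_igusa (r : GaloisRep.ratLocalizedAt ℓ) :
    ((algebraMap _ (modularFunctionFieldFull N) r : modularFunctionFieldFull N) :
      LaurentSeries ℚ) = algebraMap ℚ (LaurentSeries ℚ) (r : ℚ) :=
  RingHom.congr_fun (RingHom.ext_rat
    ((SubringClass.subtype (modularFunctionFieldFull N)).comp (algebraMap ℚ _))
    (algebraMap ℚ (LaurentSeries ℚ))) (r : ℚ)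

omit hℓ in
theorem algebraMap_mem_intSeries (r : GaloisRep.ratLocalizedAt ℓ) :
    algebraMap ℚ (LaurentSeries ℚ) (r : ℚ) ∈ intSeries ℓ := by
  rw [mem_intSeries_iff]
  intro n
  rw [algebraMap_apply_eq_single, HahnSeries.coeff_single]
  split_ifs
  · exact r.2
  · exact zero_mem _

omit [NeZero N] hℓ in
theorem adjoin_mem_intSeries {S : Set (modularFunctionFieldFull N)}
    (hS : ∀ s ∈ S, (s : LaurentSeries ℚ) ∈ intSeries ℓ) {a : modularFunctionFieldFull N}
    (ha : a ∈ Algebra.adjoin (GaloisRep.ratLocalizedAt ℓ) S) :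
    (a : LaurentSeries ℚ) ∈ intSeries ℓ := by
  induction ha using Algebra.adjoin_induction with
  | mem x hx => exact hS x hx
  | algebraMap r =>
    rw [coe_algebraMap_igusa]
    exact algebraMap_mem_intSeries r
  | add x y _ _ hx hy => exact add_mem hx hy
  | mul x y _ _ hx hy => exact mul_mem hx hy

omit hℓ in
theorem jqN_mem_intSeries {d : ℕ} [NeZero d] : qExpand ℚ d jq ∈ intSeries ℓ := by
  have hj : coeffMap (GaloisRep.ratLocalizedAt ℓ).subtype
      (qExpand _ d (jqModC (GaloisRep.ratLocalizedAt ℓ))) = qExpand ℚ d jq := by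
    rw [coeffMap_qExpand, coeffMap_jqModC, jqModC_rat]
  exact ⟨_, hj⟩

/-- Chart elements have `ℓ`-integral coefficients. -/
theorem chartAlg_mem_intSeries {S : Set (modularFunctionFieldFull N)}
    (hS : ∀ s ∈ S, (s : LaurentSeries ℚ) ∈ intSeries ℓ) {x : modularFunctionFieldFull N}
    (hx : x ∈ chartAlg N ℓ S) : (x : LaurentSeries ℚ) ∈ intSeries ℓ := by
  obtain ⟨d, hd, hd0, hdx⟩ := exists_den_of_mem_adjoin (ℓ := ℓ)
    (S := divisorExpansions N) (by rintro s ⟨d, hd, -, rfl⟩; exact jqN_mem_intSeries) x.2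
  let : Algebra (Algebra.adjoin (GaloisRep.ratLocalizedAt ℓ) S) (LaurentSeries ℚ) :=
    ((SubringClass.subtype (modularFunctionFieldFull N)).comp (algebraMap _ _)).toAlgebra
  refine mem_intSeries_of_isIntegral (A := Algebra.adjoin (GaloisRep.ratLocalizedAt ℓ) S)
    (fun a => adjoin_mem_intSeries hS a.2) hd hd0 hdx ?_
  obtain ⟨p, hp, hpx⟩ := (mem_chartAlg_iff N ℓ).mp hx
  refine ⟨p, hp, ?_⟩
  have h := congrArg (SubringClass.subtype (modularFunctionFieldFull N)) hpx
  rw [hom_eval₂, map_zero] at h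
  exact h

/-- An integral series in the span over `ℚ(s)` of a family independent mod `ℓ` has a relation
over `ℤ[s]` with denominator nonzero mod `ℓ`. -/
theorem exists_primitive_of_span {ι : Type*} [Fintype ι] {s : LaurentSeries ℚ}
    (hs : s ∈ intSeries ℓ) {e : ι → LaurentSeries ℚ} (he : ∀ i, e i ∈ intSeries ℓ)
    (hind : PolyIndep (redSeries ℓ (ZMod ℓ) ⟨s, hs⟩)
      (fun i => redSeries ℓ (ZMod ℓ) ⟨e i, he i⟩))
    {z : LaurentSeries ℚ} (hz : z ∈ intSeries ℓ)
    (hspan : ∃ P : ℚ[X], P ≠ 0 ∧ ∃ g : ι → ℚ[X], aeval s P * z = ∑ i, aeval s (g i) * e i) :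
    ∃ h : ℤ[X], h.map (Int.castRingHom (ZMod ℓ)) ≠ 0 ∧
      ∃ g : ι → ℤ[X], evZ s h * z = ∑ i, evZ s (g i) * e i := by
  obtain ⟨P, hP, g, heq⟩ := hspan
  obtain ⟨D, hD, hD'⟩ := exists_clear_denominators (ι := Option ι) (fun o => o.elim P g)
  choose p hp using hD'
  have haev : ∀ q : ℤ[X], ((evZ (⟨s, hs⟩ : intSeries ℓ) q : intSeries ℓ) : LaurentSeries ℚ)
      = evZ s q := fun q => map_evZ (intSeries ℓ).subtype _ q
  have hmap : ∀ o : Option ι, evZ s (p o) = algebraMap ℚ _ (D : ℚ) * aeval s (o.elim P g) := by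
    intro o
    rw [evZ_eq_aeval (B := ℚ), hp, map_mul, aeval_C]
  have hp0 : p none ≠ 0 := by
    intro h0
    have := hp none
    rw [h0, Polynomial.map_zero, eq_comm, mul_eq_zero, C_eq_zero, Int.cast_eq_zero] at this
    exact this.elim hD hP
  obtain ⟨h, hh, g', hg'⟩ := exists_primitive_relation hind ⟨z, hz⟩ (p none) hp0
    (fun i => p (some i)) (Subtype.ext (by
      push_cast
      simp only [haev, hmap, Option.elim_none, Option.elim_some, mul_assoc, ← Finset.mul_sum, heq]))
  refine ⟨h, hh, g', ?_⟩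
  have := congrArg Subtype.val hg'
  push_cast at this
  simpa only [haev] using this

omit [NeZero N] in
/-- A function whose expansion is integral and zero modulo `ℓ` is `ℓ` times one with integral
expansion. -/
private theorem exists_div_mem_intSeries {x : modularFunctionFieldFull N}
    (hx : (x : LaurentSeries ℚ) ∈ intSeries ℓ) (hx0 : redSeries ℓ (ZMod ℓ) ⟨x, hx⟩ = 0) :
    ∃ z : modularFunctionFieldFull N, x = (ℓ : modularFunctionFieldFull N) * z ∧
      (z : LaurentSeries ℚ) ∈ intSeries ℓ := by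
  have hℓF : (ℓ : (modularFunctionFieldFull N)) ≠ 0 := by
    rw [← map_natCast (algebraMap ℚ (modularFunctionFieldFull N)), _root_.map_ne_zero]
    exact_mod_cast hℓ.out.ne_zero
  obtain ⟨z', hz'⟩ := exists_eq_mul_of_redSeries_eq_zero hx0
  have hzval : (x : LaurentSeries ℚ) = (ℓ : LaurentSeries ℚ) * z'.1 := by
    have := congrArg Subtype.val hz'
    push_cast at this
    exact this
  set z : (modularFunctionFieldFull N) := x * (ℓ : (modularFunctionFieldFull N))⁻¹ with hz
  have hxz : x = (ℓ : (modularFunctionFieldFull N)) * z := by rw [hz]; field_simp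
  have hzmem : (z : LaurentSeries ℚ) ∈ intSeries ℓ := by
    have h1 : (z : LaurentSeries ℚ) = z'.1 := by
      have h2 := congrArg Subtype.val hxz
      push_cast at h2
      have hℓL : (ℓ : LaurentSeries ℚ) ≠ 0 := by
        rw [← map_natCast (algebraMap ℚ (LaurentSeries ℚ)), _root_.map_ne_zero]
        exact_mod_cast hℓ.out.ne_zero
      exact mul_left_cancel₀ hℓL (h2.symm.trans hzval)
    rw [h1]; exact z'.2
  exact ⟨z, hxz, hzmem⟩

/-- Over an integrally closed domain, if `l * z` and `b * z` are integral for a prime `l` not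
dividing `b`, then so is `z`. -/
private theorem isIntegral_of_prime_mul {A L : Type*} [CommRing A] [IsDomain A]
    [IsIntegrallyClosed A] [Field L] [Algebra A L] (hinj : Function.Injective (algebraMap A L))
    {l b : A} (hl : Prime l) (hb : ¬ l ∣ b) {z : L} (hlz : IsIntegral A (algebraMap A L l * z))
    (hbz : IsIntegral A (algebraMap A L b * z)) : IsIntegral A z := by
  classical
  have : FaithfulSMul A L := (faithfulSMul_iff_algebraMap_injective A L).mpr hinj
  let := FractionRing.liftAlgebra A L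
  set K := FractionRing A
  have hl0 : algebraMap A L l ≠ 0 := (map_ne_zero_iff _ hinj).mpr hl.ne_zero
  -- `z` is integral over the fraction field `K`; let `p` be its minimal polynomial.
  have hzK : IsIntegral K z := by
    have h2 : z = algebraMap K L (algebraMap A K l)⁻¹ * (algebraMap A L l * z) := by
      rw [map_inv₀, ← IsScalarTower.algebraMap_apply, inv_mul_cancel_left₀ hl0]
    rw [h2]
    exact isIntegral_algebraMap.mul hlz.tower_top
  set p := minpoly K z with hp
  -- As `a z` is integral, scaling the roots of `p` by `a` gives integral coefficients.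
  have hscale : ∀ a : A, a ≠ 0 → IsIntegral A (algebraMap A L a * z) → ∀ i,
      p.coeff i * (algebraMap A K a) ^ (p.natDegree - i) ∈ (algebraMap A K).range := by
    intro a ha haz i
    set c := algebraMap A K a
    have hc : c ≠ 0 := (map_ne_zero_iff _ (IsFractionRing.injective A K)).mpr ha
    have hca : algebraMap K L c = algebraMap A L a := (IsScalarTower.algebraMap_apply A K L a).symm
    have hq : p.scaleRoots c = minpoly K (algebraMap A L a * z) := by
      refine minpoly.unique K _ ((monic_scaleRoots_iff c).mpr (minpoly.monic hzK)) ?_ ?_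
      · rw [← hca]
        exact scaleRoots_aeval_eq_zero (minpoly.aeval K z)
      · intro q hqm hqa
        rw [degree_scaleRoots]
        have h1 : aeval (algebraMap K L c⁻¹ * (algebraMap A L a * z)) (q.scaleRoots c⁻¹) = 0 :=
          scaleRoots_aeval_eq_zero hqa
        rw [map_inv₀, ← hca, ← mul_assoc, inv_mul_cancel₀
          ((_root_.map_ne_zero _).mpr hc), one_mul] at h1
        have := minpoly.degree_le_of_ne_zero K z (scaleRoots_ne_zero hqm.ne_zero _) h1
        rwa [degree_scaleRoots] at this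
    rw [← coeff_scaleRoots, hq, minpoly.isIntegrallyClosed_eq_field_fractions' K haz, coeff_map]
    exact ⟨_, rfl⟩
  -- Being true for `l` and `b`, each coefficient is in `A` as `l ∤ b`.
  have hcoeff : ∀ i, p.coeff i ∈ (algebraMap A K).range := by
    intro i
    obtain ⟨a, ha⟩ := hscale l hl.ne_zero hlz i
    obtain ⟨c, hc⟩ := hscale b (fun h0 => hb (h0 ▸ dvd_zero _)) hbz i
    set k := p.natDegree - i
    have hab : a * b ^ k = c * l ^ k := by
      apply IsFractionRing.injective A K
      rw [map_mul, map_mul, map_pow, map_pow, ha, hc]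
      ring
    obtain ⟨t, ht⟩ := hl.pow_dvd_of_dvd_mul_right k
      (fun hd => hb (hl.dvd_of_dvd_pow hd)) ⟨c, by rw [hab, mul_comm]⟩
    refine ⟨t, mul_right_cancel₀
      (pow_ne_zero k ((map_ne_zero_iff _ (IsFractionRing.injective A K)).mpr hl.ne_zero)) ?_⟩
    rw [← ha, ht, map_mul, map_pow, mul_comm]
  obtain ⟨q, hqp, -, hqm⟩ := lifts_and_natDegree_eq_and_monic
    ((lifts_iff_coeff_lifts p).mpr hcoeff) (minpoly.monic hzK)
  refine ⟨q, hqm, ?_⟩
  rw [← aeval_def, ← aeval_map_algebraMap K, hqp]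
  exact minpoly.aeval K z

omit [NeZero N] hℓ in
/-- Evaluation at `s` is injective on polynomials over `ℤ_(ℓ)` if it is so on rational ones. -/
private theorem aeval_ratLocal_injective {s : modularFunctionFieldFull N}
    (hsQ : Function.Injective (aeval (R := ℚ) (s : LaurentSeries ℚ))) :
    Function.Injective (aeval (R := (GaloisRep.ratLocalizedAt ℓ)) s) := by
  intro p q hpq
  refine map_injective (GaloisRep.ratLocalizedAt ℓ).subtype Subtype.val_injective (hsQ ?_)
  have := congrArg (SubringClass.subtype (modularFunctionFieldFull N)) hpq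
  simp only [aeval_def, hom_eval₂] at this
  simp only [aeval_def, eval₂_map]
  rw [show (SubringClass.subtype (modularFunctionFieldFull N)).comp
    (algebraMap (GaloisRep.ratLocalizedAt ℓ) (modularFunctionFieldFull N)) =
    (algebraMap ℚ (LaurentSeries ℚ)).comp (GaloisRep.ratLocalizedAt ℓ).subtype from
      RingHom.ext fun r => coe_algebraMap_igusa (N := N) r] at this
  exact this

/-- An integer polynomial nonzero mod `ℓ` is not divisible by `ℓ` over `ℤ_(ℓ)`. -/
private theorem not_dvd_map_of_map_ne_zero {h : ℤ[X]}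
    (hh : h.map (Int.castRingHom (ZMod ℓ)) ≠ 0) :
    ¬ C (ℓ : GaloisRep.ratLocalizedAt ℓ) ∣
      h.map (Int.castRingHom (GaloisRep.ratLocalizedAt ℓ)) := by
  rintro ⟨c, hc⟩
  have := congrArg (Polynomial.map (redHom (ℓ := ℓ))) hc
  rw [Polynomial.map_map, RingHom.ext_int
    ((redHom (ℓ := ℓ)).comp (Int.castRingHom (GaloisRep.ratLocalizedAt ℓ)))
    (Int.castRingHom (ZMod ℓ)), Polynomial.map_mul, map_C, map_natCast, ZMod.natCast_self,
    C_0, zero_mul] at this
  exact hh this

/-- An element mapping the span of finitely many elements, one nonzero, into itself is integral. -/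
private theorem isIntegral_of_forall_mul_mem_span {A F : Type*} [CommRing A] [Field F]
    [Algebra A F] {ι : Type*} [Finite ι] {e : ι → F} {i₀ : ι} (hone : e i₀ ≠ 0) {u : F}
    (h : ∀ i, u * e i ∈ Submodule.span A (Set.range e)) : IsIntegral A u := by
  refine isIntegral_of_smul_mem_submodule (R := A) (A := F) (M := F)
    (Submodule.span A (Set.range e)) ?_ (Submodule.fg_span (Set.finite_range e)) u ?_
  · exact fun h0 => hone ((Submodule.mem_bot A).mp (h0 ▸ Submodule.subset_span ⟨i₀, rfl⟩))
  · intro m hm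
    induction hm using Submodule.span_induction with
    | mem y hy => obtain ⟨i, rfl⟩ := hy; exact h i
    | zero => simp
    | add a b _ _ ha hb => rw [smul_add]; exact add_mem ha hb
    | smul c a _ ha => rw [smul_comm]; exact Submodule.smul_mem _ c ha

/-- The `q`-expansion principle for a one-generator chart. -/
theorem exists_eq_mul_of_mem_chartAlg {ι : Type*} [Fintype ι] {s : modularFunctionFieldFull N}
    (hs : (s : LaurentSeries ℚ) ∈ intSeries ℓ)
    (hsQ : Function.Injective (aeval (R := ℚ) (s : LaurentSeries ℚ)))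
    {e : ι → modularFunctionFieldFull N} (he : ∀ i, (e i : LaurentSeries ℚ) ∈ intSeries ℓ)
    {i₀ : ι} (hone : e i₀ ≠ 0)
    (hind : PolyIndep (redSeries ℓ (ZMod ℓ) ⟨_, hs⟩)
      (fun i => redSeries ℓ (ZMod ℓ) ⟨_, he i⟩))
    (hspan : ∀ z ∈ modularFunctionFieldFull N, ∃ P : ℚ[X], P ≠ 0 ∧ ∃ g : ι → ℚ[X],
      aeval (s : LaurentSeries ℚ) P * z = ∑ i, aeval (s : LaurentSeries ℚ) (g i) * e i)
    {x : modularFunctionFieldFull N} (hx : x ∈ chartAlg N ℓ {s})
    (hx0 : redSeries ℓ (ZMod ℓ)
      ⟨x, chartAlg_mem_intSeries (by simpa using hs) hx⟩ = 0) :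
    ∃ y ∈ chartAlg N ℓ {s}, x = (ℓ : modularFunctionFieldFull N) * y := by
  classical
  set A := Algebra.adjoin (GaloisRep.ratLocalizedAt ℓ)
    ({s} : Set (modularFunctionFieldFull N)) with hA
  -- `A` is a polynomial ring
  have hinj := aeval_ratLocal_injective (ℓ := ℓ) hsQ
  let φ : Polynomial (GaloisRep.ratLocalizedAt ℓ) ≃ₐ[(GaloisRep.ratLocalizedAt ℓ)] A :=
      (AlgEquiv.ofInjective _ hinj).trans
    (Subalgebra.equivOfEq _ _ (Algebra.adjoin_singleton_eq_range_aeval
      (GaloisRep.ratLocalizedAt ℓ) s).symm)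
  have hφ : ∀ p, ((φ p : A) : (modularFunctionFieldFull N)) = aeval s p := fun p => rfl
  have hclosed := isIntegrallyClosed_ratLocalizedAt (ℓ := ℓ)
  have hAic : IsIntegrallyClosed A := IsIntegrallyClosed.of_equiv φ.toRingEquiv
  let lA : A := φ (C (ℓ : (GaloisRep.ratLocalizedAt ℓ)))
  have hlA : ((lA : A) : (modularFunctionFieldFull N)) = (ℓ : (modularFunctionFieldFull N)) := by
    rw [hφ, map_natCast (C : (GaloisRep.ratLocalizedAt ℓ) →+* (GaloisRep.ratLocalizedAt ℓ)[X]),
      map_natCast]
  have hprime : Prime lA := (MulEquiv.prime_iff φ).mpr (prime_C_iff.mpr prime_natCast_ratLocal)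
  let aH : ℤ[X] → A := fun h => φ (h.map (Int.castRingHom (GaloisRep.ratLocalizedAt ℓ)))
  have haH : ∀ h : ℤ[X], ((aH h : A) : LaurentSeries ℚ) = evZ (s : LaurentSeries ℚ) h := by
    intro h
    rw [hφ, ← evZ_eq_aeval]
    exact map_evZ (SubringClass.subtype (modularFunctionFieldFull N)) s h
  have hndvd : ∀ h : ℤ[X], h.map (Int.castRingHom (ZMod ℓ)) ≠ 0 → ¬ lA ∣ aH h := fun h hh hdvd =>
    not_dvd_map_of_map_ne_zero hh ((map_dvd_iff φ).mp hdvd)
  -- the quotient `z = x / ℓ`
  obtain ⟨z, hxz, hzmem⟩ := exists_div_mem_intSeries _ hx0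
  -- a denominator `H`, primitive mod `ℓ`, with `H z` integral over `A`
  have hk : ∀ i, ∃ h : ℤ[X], h.map (Int.castRingHom (ZMod ℓ)) ≠ 0 ∧ ∃ g : ι → ℤ[X],
      evZ (s : LaurentSeries ℚ) h * ((z * e i : (modularFunctionFieldFull N)) : LaurentSeries ℚ) =
        ∑ j, evZ (s : LaurentSeries ℚ) (g j) * (e j : LaurentSeries ℚ) := fun i =>
    exists_primitive_of_span hs he hind (by push_cast; exact mul_mem hzmem (he i))
      (hspan _ (z * e i).2)
  choose h hh g hg using hk
  set H := ∏ i, h i with hH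
  have hH0 : H.map (Int.castRingHom (ZMod ℓ)) ≠ 0 := by
    rw [hH, Polynomial.map_prod]
    exact Finset.prod_ne_zero_iff.mpr fun i _ => hh i
  have hHint : IsIntegral A (((aH H : A) : (modularFunctionFieldFull N)) * z) := by
    refine isIntegral_of_forall_mul_mem_span (A := A) hone fun i => ?_
    have hval : ((aH H : A) : (modularFunctionFieldFull N)) * z * e i =
        ∑ j, (aH ((∏ k ∈ Finset.univ.erase i, h k) * g i j)) • e j := by
      apply Subtype.ext
      simp only [Subalgebra.smul_def, smul_eq_mul, IntermediateField.coe_sum]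
      push_cast
      simp only [haH, map_mul, mul_assoc, ← Finset.mul_sum]
      rw [hH, ← Finset.prod_erase_mul _ _ (Finset.mem_univ i), map_mul, ← hg i]
      push_cast
      ring
    rw [hval]
    exact sum_mem fun j _ => Submodule.smul_mem _ _ (Submodule.subset_span ⟨j, rfl⟩)
  have hlint : IsIntegral A ((lA : (modularFunctionFieldFull N)) * z) := by
    rw [hlA, ← hxz]; exact hx
  refine ⟨z, ?_, hxz⟩
  -- normality
  have hzint : IsIntegral A z :=
    isIntegral_of_prime_mul Subtype.val_injective hprime (hndvd H hH0) hlint hHint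
  obtain ⟨q, hqm, hq0⟩ := hzint
  exact (mem_chartAlg_iff N ℓ).mpr ⟨q, hqm, hq0⟩

end Chart

end Fermat.Agent.Igusa

end
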