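import Mathlib
import Fermat.Agent.Igusa.Gauss
import Fermat.Agent.Igusa.FullField

/-!
# A basis of the function field with independent reduction mod `ℓ`
-/

set_option autoImplicit false

noncomputable section

namespace Fermat.Agent.Igusa

open ModularCurve Polynomial

variable {ℓ : ℕ} [hℓ : Fact ℓ.Prime] {ι : Type*} [Fintype ι]

/-- Independence mod `ℓ` implies independence over `ℚ`. -/
theorem polyIndep_rat_of_red {s : intSeries ℓ} {e : ι → intSeries ℓ}
    (hind : PolyIndep (redSeries ℓ (ZMod ℓ) s) (fun i => redSeries ℓ (ZMod ℓ) (e i))) :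
    PolyIndep (s : LaurentSeries ℚ) (fun i => (e i : LaurentSeries ℚ)) := by
  classical
  rw [polyIndep_iff]
  intro g hg
  obtain ⟨D, hD, hD'⟩ := exists_clear_denominators g
  choose p hp using hD'
  -- Clear the denominators of a rational relation.
  have hZ : ∑ i, evZ s (p i) * e i = 0 := by
    apply Subtype.ext
    push_cast
    have hv : ∀ q, ((evZ s q : intSeries ℓ) : LaurentSeries ℚ) = evZ (s : LaurentSeries ℚ) q :=
      fun q => map_evZ (intSeries ℓ).subtype _ q
    simp only [hv, evZ_eq_aeval (B := ℚ), hp, map_mul, aeval_C, mul_assoc, ← Finset.mul_sum, hg,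
      mul_zero]
  funext i₀
  by_contra hne
  have hp0 : p i₀ ≠ 0 := by
    intro h0
    have := hp i₀
    rw [h0, Polynomial.map_zero, eq_comm, mul_eq_zero, C_eq_zero, Int.cast_eq_zero] at this
    exact this.elim hD hne
  set e' : {i // i ≠ i₀} → intSeries ℓ := fun i => e i with he'
  have hind' : PolyIndep (redSeries ℓ (ZMod ℓ) s) (fun i => redSeries ℓ (ZMod ℓ) (e' i)) :=
    hind.comp (fun q : {i // i ≠ i₀} × ℕ => ((q.1 : ι), q.2)) (fun a b h => by
      simp only [Prod.mk.injEq] at h
      exact Prod.ext (Subtype.ext h.1) h.2)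
  have hrel : evZ s (p i₀) * e i₀ = ∑ i : {i // i ≠ i₀}, evZ s (-p i) * e' i := by
    simp only [map_neg, neg_mul, Finset.sum_neg_distrib, he']
    rw [← Finset.sum_subtype (Finset.univ.erase i₀) (fun x => by simp)
      (fun i => evZ s (p i) * e i)]
    exact eq_neg_of_add_eq_zero_left
      ((Finset.add_sum_erase Finset.univ (fun i => evZ s (p i) * e i)
        (Finset.mem_univ i₀)).trans hZ)
  -- Make it primitive mod `ℓ`; its reduction contradicts independence.
  obtain ⟨h, hh, g', hg'⟩ := exists_primitive_relation hind' (e i₀) (p i₀) hp0 _ hrel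
  set G : ι → (ZMod ℓ)[X] := fun i => if hi : i = i₀ then h.map (Int.castRingHom _)
    else -(g' ⟨i, hi⟩).map (Int.castRingHom _) with hG
  refine hh ?_
  have : G = 0 := by
    refine polyIndep_iff.mp hind G ?_
    have h1 := congrArg (redSeries ℓ (ZMod ℓ)) hg'
    simp only [map_mul, map_sum, redSeries_evZ, he'] at h1
    rw [← Finset.add_sum_erase _ _ (Finset.mem_univ i₀),
      Finset.sum_subtype (Finset.univ.erase i₀) (p := fun i => i ≠ i₀) (fun x => by simp)]
    have h2 : ∀ i : {i // i ≠ i₀}, G i = -(g' i).map (Int.castRingHom _) :=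
      fun i => by rw [hG]; exact dif_neg i.2
    simp only [h2, map_neg, neg_mul, Finset.sum_neg_distrib]
    rw [show G i₀ = h.map (Int.castRingHom _) from dif_pos rfl, h1, add_neg_cancel]
  simpa [hG] using congrFun this i₀

/-- A spanning family over `k(x)` gives relations with polynomial coefficients. -/
theorem exists_poly_relation {k : Type*} [Field k] {x : LaurentSeries k}
    {v : ι → LaurentSeries k} {z : LaurentSeries k}
    (hz : z ∈ Submodule.span (IntermediateField.adjoin k ({x} : Set (LaurentSeries k)))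
      (Set.range v)) :
    ∃ P : k[X], P ≠ 0 ∧ ∃ g : ι → k[X], aeval x P * z = ∑ i, aeval x (g i) * v i := by
  classical
  obtain ⟨c, hc⟩ := (Submodule.mem_span_range_iff_exists_fun _).mp hz
  choose r s hrs using fun j => (IntermediateField.mem_adjoin_simple_iff k _).mp (c j).2
  set s' : ι → k[X] := fun j => if aeval x (s j) = 0 then 1 else s j with hs'
  set r' : ι → k[X] := fun j => if aeval x (s j) = 0 then 0 else r j with hr'
  have hs0 : ∀ j, aeval x (s' j) ≠ 0 := by
    intro j
    simp only [hs']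
    split_ifs with h
    · simp
    · exact h
  have hc' : ∀ j, (c j : LaurentSeries k) = aeval x (r' j) / aeval x (s' j) := by
    intro j
    simp only [hs', hr']
    split_ifs with h
    · rw [hrs j, h, div_zero, map_zero, zero_div]
    · exact hrs j
  refine ⟨∏ j, s' j, Finset.prod_ne_zero_iff.mpr fun j _ h0 => hs0 j (by rw [h0, map_zero]),
    fun i => r' i * ∏ j ∈ Finset.univ.erase i, s' j, ?_⟩
  rw [← hc, Finset.mul_sum]
  refine Finset.sum_congr rfl fun i _ => ?_
  change _ * ((c i : LaurentSeries k) * v i) = _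
  rw [hc', ← Finset.mul_prod_erase _ _ (Finset.mem_univ i), map_mul, map_mul]
  have := hs0 i
  field_simp

omit [Fintype ι] hℓ in
/-- A series and its inverse generate the same field. -/
theorem adjoin_inv_eq {k : Type*} [Field k] (x : LaurentSeries k) :
    IntermediateField.adjoin k ({x⁻¹} : Set (LaurentSeries k)) =
      IntermediateField.adjoin k ({x} : Set (LaurentSeries k)) := by
  apply le_antisymm <;> rw [IntermediateField.adjoin_le_iff, Set.singleton_subset_iff]
  · exact inv_mem (IntermediateField.mem_adjoin_simple_self k x)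
  · have := inv_mem (IntermediateField.mem_adjoin_simple_self k x⁻¹)
    rwa [inv_inv] at this

/-- The inverse of a transcendental series is transcendental. -/
theorem aeval_inv_injective {k : Type*} [Field k] {x : LaurentSeries k}
    (hx : Function.Injective (aeval (R := k) x)) : Function.Injective (aeval (R := k) x⁻¹) := by
  have h := transcendental_iff_injective.mpr hx
  refine transcendental_iff_injective.mp fun h' => h ?_
  have := h'.inv
  rwa [inv_inv] at this

variable (ℓ) in
/-- A family in `F` with integral coefficients, independent mod `ℓ` and spanning. -/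
structure GoodBasis (N : ℕ) (s : LaurentSeries ℚ) where
  /-- the size -/
  n : ℕ
  /-- the family -/
  e : Fin n → modularFunctionFieldFull N
  integral : ∀ i, (e i : LaurentSeries ℚ) ∈ intSeries ℓ
  mem : s ∈ intSeries ℓ
  indep : PolyIndep (redSeries ℓ (ZMod ℓ) ⟨s, mem⟩)
    (fun i => redSeries ℓ (ZMod ℓ) ⟨_, integral i⟩)
  span : ∀ z ∈ modularFunctionFieldFull N, ∃ P : ℚ[X], P ≠ 0 ∧ ∃ g : Fin n → ℚ[X],
    aeval s P * z = ∑ i, aeval s (g i) * e i

variable (ℓ) in
/-- The integral series attached to a series over `ℤ_(ℓ)`. -/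
def intMk (y : LaurentSeries (GaloisRep.ratLocalizedAt ℓ)) : intSeries ℓ :=
  ⟨coeffMap (GaloisRep.ratLocalizedAt ℓ).subtype y, RingHom.mem_range.mpr ⟨y, rfl⟩⟩

omit hℓ in
theorem coe_intMk (y : LaurentSeries (GaloisRep.ratLocalizedAt ℓ)) :
    ((intMk ℓ y : intSeries ℓ) : LaurentSeries ℚ) =
      coeffMap (GaloisRep.ratLocalizedAt ℓ).subtype y := rfl

theorem redSeries_intMk {K : Type*} [Field K] [CharP K ℓ]
    (y : LaurentSeries (GaloisRep.ratLocalizedAt ℓ)) :
    redSeries ℓ K (intMk ℓ y) = coeffMap (ratLocalToField (ℓ := ℓ) K) y := by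
  ext n
  refine (coeff_redSeries K _ n).trans ?_
  exact congrArg _ (Subtype.ext rfl)

omit hℓ in
theorem jq_mem_intSeries : jq ∈ intSeries ℓ :=
  RingHom.mem_range.mpr ⟨jqModC _, by rw [coeffMap_jqModC, jqModC_rat]⟩

theorem redSeries_jq (K : Type*) [Field K] [CharP K ℓ] :
    redSeries ℓ K ⟨jq, jq_mem_intSeries⟩ = jqModC K := by
  have h : (⟨jq, jq_mem_intSeries⟩ : intSeries ℓ) = intMk ℓ (jqModC _) :=
    Subtype.ext (by rw [coe_intMk, coeffMap_jqModC, jqModC_rat])
  rw [h, redSeries_intMk, coeffMap_jqModC]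

theorem exists_redSeries_eq_of_mem_closure {N : ℕ} {x : LaurentSeries (ZMod ℓ)}
    (hx : x ∈ Submonoid.closure (divisorExpansionsC (ZMod ℓ) N)) :
    ∃ y : intSeries ℓ, (y : LaurentSeries ℚ) ∈ modularFunctionFieldFull N ∧
      redSeries ℓ (ZMod ℓ) y = x := by
  induction hx using Submonoid.closure_induction with
  | mem x hx =>
    obtain ⟨d, hd, hdN, rfl⟩ := hx
    refine ⟨intMk ℓ (qExpand _ d (jqModC _)), ?_, ?_⟩
    · rw [coe_intMk, coeffMap_qExpand, coeffMap_jqModC, jqModC_rat]
      exact jqd_mem_full N hdN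
    · rw [redSeries_intMk, coeffMap_qExpand, coeffMap_jqModC]
  | one => exact ⟨1, one_mem _, map_one _⟩
  | mul a b _ _ ha hb =>
    obtain ⟨y, hy, hy'⟩ := ha
    obtain ⟨z, hz, hz'⟩ := hb
    exact ⟨y * z, mul_mem hy hz, by rw [map_mul, hy', hz']⟩

/-- A family in `F` whose reductions form a basis mod `ℓ`. -/
theorem exists_family_red {N n : ℕ} (hl : HasFullDegree (ZMod ℓ) N n) :
    ∃ e : Fin n → intSeries ℓ, (∀ i, (e i : LaurentSeries ℚ) ∈ modularFunctionFieldFull N) ∧
      PolyIndep (redSeries ℓ (ZMod ℓ) ⟨jq, jq_mem_intSeries⟩)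
        (fun i => redSeries ℓ (ZMod ℓ) (e i)) := by
  classical
  have := hl.1
  have halg : ∀ x ∈ divisorExpansionsC (ZMod ℓ) N, IsAlgebraic (jLine (ZMod ℓ)) x := fun x hx =>
    (isAlgebraic_algHom_iff (fullOverLine (ZMod ℓ) N).val Subtype.val_injective).mpr
      (Algebra.IsAlgebraic.isAlgebraic
        (⟨x, IntermediateField.subset_adjoin _ _ hx⟩ : fullOverLine (ZMod ℓ) N))
  have hE : Subalgebra.toSubmodule (fullOverLine (ZMod ℓ) N).toSubalgebra =
      Submodule.span (jLine (ZMod ℓ))
        (Submonoid.closure (divisorExpansionsC (ZMod ℓ) N) : Set _) := by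
    rw [IntermediateField.adjoin_toSubalgebra_of_isAlgebraic halg, Algebra.adjoin_eq_span]
  obtain ⟨b, hb, hbspan, hbind⟩ := exists_linearIndependent (jLine (ZMod ℓ))
    (Submonoid.closure (divisorExpansionsC (ZMod ℓ) N) : Set (LaurentSeries (ZMod ℓ)))
  have hbE : ∀ x ∈ b, x ∈ fullOverLine (ZMod ℓ) N := fun x hx => by
    have : x ∈ Subalgebra.toSubmodule (fullOverLine (ZMod ℓ) N).toSubalgebra := by
      rw [hE]; exact Submodule.subset_span (hb hx)
    exact this
  have hbindE : LinearIndependent (jLine (ZMod ℓ))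
      (fun x : b => (⟨x.1, hbE _ x.2⟩ : fullOverLine (ZMod ℓ) N)) :=
    LinearIndependent.of_comp (fullOverLine (ZMod ℓ) N).val.toLinearMap hbind
  have : Finite b := hbindE.finite
  have := Fintype.ofFinite b
  have hcard : Fintype.card b = n := by
    have h1 := finrank_span_eq_card hbind
    rw [Subtype.range_coe, hbspan, ← hE] at h1
    rw [← h1, ← hl.2]
    rfl
  choose y hyF hy using fun x : b => exists_redSeries_eq_of_mem_closure (hb x.2)
  let σ := Fintype.equivFinOfCardEq hcard
  refine ⟨fun i => y (σ.symm i), fun i => hyF _, ?_⟩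
  rw [redSeries_jq, polyIndep_iff_linearIndependent aeval_jqModC_injective]
  simp only [hy]
  exact hbind.comp _ σ.symm.injective

/-- A family of full size independent over `k[j]` spans the function field up to denominators in
`k[j]`. -/
theorem span_of_indep {k : Type*} [Field k] {N n : ℕ} (hQ : HasFullDegree k N n)
    {e : Fin n → LaurentSeries k}
    (he : ∀ i, e i ∈ modularFunctionFieldFullC k N) (hind : PolyIndep (jqModC k) e)
    {z : LaurentSeries k} (hz : z ∈ modularFunctionFieldFullC k N) :
    ∃ P : k[X], P ≠ 0 ∧ ∃ g : Fin n → k[X],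
      aeval (jqModC k) P * z = ∑ i, aeval (jqModC k) (g i) * e i := by
  refine exists_poly_relation ?_
  have hind' : LinearIndependent (jLine k) e :=
    (polyIndep_iff_linearIndependent aeval_jqModC_injective).mp hind
  have heQ : ∀ i, e i ∈ fullOverLine k N := fun i => (mem_fullOverLine_iff k N).mpr (he i)
  have hcard : Fintype.card (Fin n) = Module.finrank (jLine k) (fullOverLine k N) := by
    rw [Fintype.card_fin, hQ.2]
  have hsub : Submodule.span (jLine k) (Set.range e) ≤
      Subalgebra.toSubmodule (fullOverLine k N).toSubalgebra := by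
    rw [Submodule.span_le]
    rintro _ ⟨i, rfl⟩
    exact heQ i
  have : FiniteDimensional (jLine k)
      (Subalgebra.toSubmodule (fullOverLine k N).toSubalgebra) := hQ.1
  have hrank : Module.finrank (jLine k)
      (Subalgebra.toSubmodule (fullOverLine k N).toSubalgebra) ≤
      Module.finrank (jLine k) (Submodule.span (jLine k) (Set.range e)) := by
    rw [finrank_span_eq_card hind', hcard]
    exact le_of_eq rfl
  rw [Submodule.eq_of_le_of_finrank_le hsub hrank]
  exact (mem_fullOverLine_iff k N).mpr hz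

theorem exists_goodBasis_jq {N n : ℕ} (hQ : HasFullDegree ℚ N n)
    (hl : HasFullDegree (ZMod ℓ) N n) : Nonempty (GoodBasis ℓ N jq) := by
  obtain ⟨e, heF, hind⟩ := exists_family_red hl
  refine ⟨{
    n := n
    e := fun i => ⟨_, heF i⟩
    integral := fun i => (e i).2
    mem := jq_mem_intSeries
    indep := hind
    span := ?_ }⟩
  intro z hz
  have h : PolyIndep jq (fun i => (e i : LaurentSeries ℚ)) := by
    have h0 := polyIndep_rat_of_red hind
    with_reducible_and_instances exact h0
  rw [← jqModC_rat] at h ⊢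
  have heC : ∀ i, (e i : LaurentSeries ℚ) ∈ modularFunctionFieldFullC ℚ N := by
    intro i
    rw [modularFunctionFieldFullC_rat]
    exact heF i
  have hzC : z ∈ modularFunctionFieldFullC ℚ N := by
    rw [modularFunctionFieldFullC_rat]
    exact hz
  have key := span_of_indep (z := z) hQ (e := fun i => (e i : LaurentSeries ℚ)) heC h hzC
  with_reducible_and_instances exact key

/-- A good basis over the line of `s` gives one over the line of `s⁻¹`, when `s⁻¹` is `ℓ`-integral
and `s` and its reduction are transcendental. -/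
theorem GoodBasis.inv {N : ℕ} {s : LaurentSeries ℚ} (B : GoodBasis ℓ N s)
    (hs : Function.Injective (aeval (R := ℚ) s))
    (hsl : Function.Injective (aeval (R := ZMod ℓ) (redSeries ℓ (ZMod ℓ) ⟨s, B.mem⟩)))
    (hinv : s⁻¹ ∈ intSeries ℓ) : Nonempty (GoodBasis ℓ N s⁻¹) := by
  have hs0 : s ≠ 0 := fun h0 => X_ne_zero (hs (by simp [h0] : aeval s X = aeval s (0 : ℚ[X])))
  have hred : redSeries ℓ (ZMod ℓ) ⟨s⁻¹, hinv⟩ = (redSeries ℓ (ZMod ℓ) ⟨s, B.mem⟩)⁻¹ := by
    refine eq_inv_of_mul_eq_one_left ?_
    rw [← map_mul, show (⟨s⁻¹, hinv⟩ : intSeries ℓ) * ⟨s, B.mem⟩ = 1 from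
      Subtype.ext (inv_mul_cancel₀ hs0), map_one]
  refine ⟨{ n := B.n, e := B.e, integral := B.integral, mem := hinv, indep := ?_, span := ?_ }⟩
  · rw [hred, polyIndep_iff_linearIndependent (aeval_inv_injective hsl), adjoin_inv_eq]
    exact (polyIndep_iff_linearIndependent hsl).mp B.indep
  · intro z hz
    refine exists_poly_relation ?_
    rw [adjoin_inv_eq]
    obtain ⟨P, hP, g, hg⟩ := B.span z hz
    have hP0 : aeval s P ≠ 0 := fun h0 => hP (hs (by rw [h0, map_zero]))
    have hz' : z = ∑ i, (aeval s (g i) / aeval s P) * (B.e i : LaurentSeries ℚ) := by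
      rw [eq_comm]
      simp only [div_mul_eq_mul_div, ← Finset.sum_div, ← hg]
      field_simp
    rw [hz']
    refine sum_mem fun i _ => ?_
    have h := Submodule.smul_mem
      (Submodule.span (IntermediateField.adjoin ℚ ({s} : Set (LaurentSeries ℚ)))
        (Set.range fun i => (B.e i : LaurentSeries ℚ)))
      (⟨_, div_mem (aeval_mem_adjoin s (g i)) (aeval_mem_adjoin s P)⟩ :
        IntermediateField.adjoin ℚ ({s} : Set (LaurentSeries ℚ)))
      (Submodule.subset_span ⟨i, rfl⟩)
    exact h

end Fermat.Agent.Igusa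

end
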