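import Fermat.Agent.Igusa.GoodBasis
import Fermat.Agent.Igusa.Degree

/-!
# `chart ⊗ K` embeds in `K((q))` in characteristic `ℓ ∤ N`
-/

set_option autoImplicit false

noncomputable section

namespace Fermat.Agent.Igusa

open ModularCurve ModularCurve.IgusaScheme Polynomial TensorProduct

variable {N : ℕ} [NeZero N] {ℓ : ℕ} [hℓ : Fact ℓ.Prime]
variable (K : Type) [Field K] [CharP K ℓ] [Algebra ↥(GaloisRep.ratLocalizedAt ℓ) K]

theorem algebraMap_laurent_tower (r : ↥(GaloisRep.ratLocalizedAt ℓ)) :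
    algebraMap ↥(GaloisRep.ratLocalizedAt ℓ) (LaurentSeries K) r =
      HahnSeries.single 0 (ratLocalToField (ℓ := ℓ) K r) := by
  rw [← ringHom_ratLocal_ext (algebraMap ↥(GaloisRep.ratLocalizedAt ℓ) K)
    (ratLocalToField (ℓ := ℓ) K)]
  rw [HahnSeries.algebraMap_apply', PowerSeries.algebraMap_apply, HahnSeries.ofPowerSeries_C]
  rfl

omit [Algebra ↥(GaloisRep.ratLocalizedAt ℓ) K] in
theorem redSeries_const (r : ↥(GaloisRep.ratLocalizedAt ℓ))
    (h : algebraMap ℚ (LaurentSeries ℚ) (r : ℚ) ∈ intSeries ℓ) :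
    redSeries ℓ K ⟨_, h⟩ = HahnSeries.single 0 (ratLocalToField (ℓ := ℓ) K r) := by
  ext n
  rw [coeff_redSeries, HahnSeries.coeff_single]
  have hc : (algebraMap ℚ (LaurentSeries ℚ) (r : ℚ)).coeff n = if n = 0 then (r : ℚ) else 0 := by
    rw [algebraMap_apply_eq_single, HahnSeries.coeff_single]
    split_ifs <;> rfl
  split_ifs with hn
  · exact congrArg _ (Subtype.ext (hc.trans (if_pos hn)))
  · refine Eq.trans (congrArg _ (Subtype.ext ?_)) (map_zero _)
    exact hc.trans (if_neg hn)

variable {S : Set (modularFunctionFieldFull N)}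
  (hS : ∀ s ∈ S, (s : LaurentSeries ℚ) ∈ intSeries ℓ)

/-- The coefficientwise reduction on a chart. -/
def chartRed : chartAlg N ℓ S →ₐ[↥(GaloisRep.ratLocalizedAt ℓ)] LaurentSeries K :=
  { (redSeries ℓ K).comp
      (((SubringClass.subtype (modularFunctionFieldFull N)).comp
        (SubringClass.subtype (chartAlg N ℓ S))).codRestrict (intSeries ℓ)
          fun x => chartAlg_mem_intSeries hS x.2) with
    commutes' := fun r => by
      rw [algebraMap_laurent_tower]
      refine Eq.trans ?_ (redSeries_const K r (algebraMap_mem_intSeries r))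
      exact congrArg (redSeries ℓ K) (Subtype.ext (coe_algebraMap_igusa (N := N) r)) }

theorem chartRed_apply (x : chartAlg N ℓ S) :
    chartRed K hS x = redSeries ℓ K
      ⟨((x : modularFunctionFieldFull N) : LaurentSeries ℚ), chartAlg_mem_intSeries hS x.2⟩ :=
  rfl

/-- `chart ⊗ K → K((q))`. -/
def chartTensor : (chartAlg N ℓ S) ⊗[↥(GaloisRep.ratLocalizedAt ℓ)]
    K →ₐ[↥(GaloisRep.ratLocalizedAt ℓ)]
    LaurentSeries K :=
  Algebra.TensorProduct.productMap (chartRed K hS)
    { algebraMap K (LaurentSeries K) with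
      commutes' := fun r => by
        rw [algebraMap_laurent_tower, ← ringHom_ratLocal_ext
          (algebraMap ↥(GaloisRep.ratLocalizedAt ℓ) K) (ratLocalToField (ℓ := ℓ) K)]
        exact algebraMap_laurentSeries_eq_single K _ }

theorem chartTensor_tmul (x : chartAlg N ℓ S) (c : K) :
    chartTensor K hS (x ⊗ₜ c) = chartRed K hS x * algebraMap K (LaurentSeries K) c :=
  Algebra.TensorProduct.productMap_apply_tmul _ _ _ _

/-- The property that mod-`ℓ` vanishing means divisibility by `ℓ`. -/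
def Saturated (hS : ∀ s ∈ S, (s : LaurentSeries ℚ) ∈ intSeries ℓ) : Prop :=
  ∀ x : modularFunctionFieldFull N, ∀ hx : x ∈ chartAlg N ℓ S,
    redSeries ℓ (ZMod ℓ) ⟨x, chartAlg_mem_intSeries hS hx⟩ = 0 →
      ∃ y ∈ chartAlg N ℓ S, x = (ℓ : modularFunctionFieldFull N) * y

theorem chartTensor_injective (hsat : Saturated hS) :
    Function.Injective (chartTensor K hS) := by
  classical
  let : Algebra (ZMod ℓ) K := ZMod.algebra K ℓ
  let b := Module.Free.chooseBasis (ZMod ℓ) K
  set A := chartAlg N ℓ S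
  -- Write a tensor as `∑ f i ⊗ b i` over a basis `b` of `K` over `ZMod ℓ`.
  have hform : ∀ t : A ⊗[↥(GaloisRep.ratLocalizedAt ℓ)] K,
      ∃ f : Module.Free.ChooseBasisIndex (ZMod ℓ) K →₀ A, t = f.sum fun i x => x ⊗ₜ b i := by
    intro t
    induction t using TensorProduct.induction_on with
    | zero => exact ⟨0, by simp⟩
    | tmul x c =>
      refine ⟨(b.repr c).mapRange (fun a => a.val • x) (by simp), ?_⟩
      rw [Finsupp.sum_mapRange_index (h := fun i (z : A) => z ⊗ₜ b i)
        (fun i => TensorProduct.zero_tmul _ (b i))]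
      conv_lhs => rw [← b.linearCombination_repr c, Finsupp.linearCombination_apply]
      rw [Finsupp.sum, Finsupp.sum, TensorProduct.tmul_sum]
      refine Finset.sum_congr rfl fun i _ => ?_
      rw [TensorProduct.smul_tmul]
      congr 1
      rw [← Nat.cast_smul_eq_nsmul (ZMod ℓ), ZMod.natCast_zmod_val]
    | add t t' ht ht' =>
      obtain ⟨f, rfl⟩ := ht
      obtain ⟨g, rfl⟩ := ht'
      exact ⟨f + g, (Finsupp.sum_add_index' (h := fun i (z : A) => z ⊗ₜ b i)
        (fun i => TensorProduct.zero_tmul _ (b i))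
        (fun i z z' => TensorProduct.add_tmul z z' (b i))).symm⟩
  rw [injective_iff_map_eq_zero]
  intro t ht
  obtain ⟨f, rfl⟩ := hform t
  rw [map_finsuppSum, Finsupp.sum] at ht
  refine Finset.sum_eq_zero fun i hi => ?_
  -- If its image vanishes, so does the reduction of each `f i`, which is then divisible by `ℓ`.
  obtain ⟨y, hy, hxy⟩ := hsat _ (f i).2 (by
    ext n
    have hn := congrArg (fun z : LaurentSeries K => z.coeff n) ht
    simp only [HahnSeries.coeff_sum, HahnSeries.coeff_zero] at hn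
    have hterm : ∀ j, (chartTensor K hS ((f j) ⊗ₜ b j)).coeff n =
        (redSeries ℓ (ZMod ℓ)
          ⟨((f j : modularFunctionFieldFull N) : LaurentSeries ℚ),
            chartAlg_mem_intSeries hS (f j).2⟩).coeff n • b j := by
      intro j
      rw [chartTensor_tmul, chartRed_apply, redSeries_eq_liftK K,
        algebraMap_laurentSeries_eq_single, HahnSeries.coeff_mul_single_zero, coeffMap_coeff,
        Algebra.smul_def]
    simp only [hterm] at hn
    exact linearIndependent_iff'.mp b.linearIndependent f.support _ hn i hi)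
  have hfi : f i = (ℓ : ℕ) • (⟨y, hy⟩ : A) := by
    apply Subtype.ext
    rw [hxy, nsmul_eq_mul]
    push_cast
    rfl
  change (f i) ⊗ₜ b i = 0
  rw [hfi, TensorProduct.smul_tmul, nsmul_eq_mul, CharP.cast_eq_zero K ℓ, zero_mul,
    TensorProduct.tmul_zero]

theorem isDomain_tensor (hsat : Saturated hS) :
    IsDomain ((chartAlg N ℓ S) ⊗[↥(GaloisRep.ratLocalizedAt ℓ)] K) :=
  Function.Injective.isDomain (chartTensor K hS).toRingHom (chartTensor_injective K hS hsat)

include hS in
theorem nontrivial_tensor :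
    Nontrivial ((chartAlg N ℓ S) ⊗[↥(GaloisRep.ratLocalizedAt ℓ)] K) :=
  (chartTensor K hS).toRingHom.domain_nontrivial

section Charts

variable (N ℓ)

omit hℓ in
theorem jqInv_mem_intSeries : jq⁻¹ ∈ intSeries ℓ := by
  have hy : coeffMap (GaloisRep.ratLocalizedAt ℓ).subtype
      (HahnSeries.single (1 : ℤ) 1 * HahnSeries.ofPowerSeries ℤ _
        ((jNum.map (Int.castRingHom ↥(GaloisRep.ratLocalizedAt ℓ))).invOfUnit 1)) = jq⁻¹ := by
    refine eq_inv_of_mul_eq_one_left ?_
    rw [← jqModC_rat, ← coeffMap_jqModC (GaloisRep.ratLocalizedAt ℓ).subtype, ← map_mul, jqModC,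
      mul_mul_mul_comm, ← map_mul, mul_comm (PowerSeries.invOfUnit _ _),
      PowerSeries.mul_invOfUnit _ _ ?_, HahnSeries.single_mul_single]
    · simp
    · rw [← PowerSeries.coeff_zero_eq_constantCoeff, PowerSeries.coeff_map,
        PowerSeries.coeff_zero_eq_constantCoeff, constantCoeff_jNum, map_one]
      rfl
  exact RingHom.mem_range.mpr ⟨_, hy⟩

omit hℓ in
theorem jFull_mem_intSeries : ∀ s ∈ ({jFull N} : Set (modularFunctionFieldFull N)),
    (s : LaurentSeries ℚ) ∈ intSeries ℓ := by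
  rintro s rfl
  rw [coe_jFull]
  exact jq_mem_intSeries

omit hℓ in
theorem jFullInv_mem_intSeries : ∀ s ∈ ({(jFull N)⁻¹} : Set (modularFunctionFieldFull N)),
    (s : LaurentSeries ℚ) ∈ intSeries ℓ := by
  rintro s rfl
  push_cast
  exact jqInv_mem_intSeries ℓ

omit hℓ in
theorem jFullPair_mem_intSeries :
    ∀ s ∈ ({jFull N, (jFull N)⁻¹} : Set (modularFunctionFieldFull N)),
      (s : LaurentSeries ℚ) ∈ intSeries ℓ := by
  rintro s (rfl | rfl)
  · exact jFull_mem_intSeries N ℓ _ rfl
  · exact jFullInv_mem_intSeries N ℓ _ rfl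

theorem saturated_of_goodBasis {s : modularFunctionFieldFull N}
    (hsi : ∀ x ∈ ({s} : Set (modularFunctionFieldFull N)), (x : LaurentSeries ℚ) ∈ intSeries ℓ)
    (hsQ : Function.Injective (aeval (R := ℚ) (s : LaurentSeries ℚ)))
    (B : GoodBasis ℓ N (s : LaurentSeries ℚ)) : Saturated (ℓ := ℓ) hsi := by
  intro x hx hx0
  obtain ⟨P, hP, g, hg⟩ := B.span 1 (one_mem _)
  obtain ⟨i, hi⟩ : ∃ i, B.e i ≠ 0 := by
    by_contra! h0
    refine hP (hsQ ?_)
    rw [map_zero]
    simpa [h0] using hg
  exact exists_eq_mul_of_mem_chartAlg (hsi s rfl) hsQ B.integral hi B.indep B.span hx hx0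

theorem aeval_jq_injective : Function.Injective (aeval (R := ℚ) jq) := by
  have h := aeval_jqModC_injective (k := ℚ)
  rw [jqModC_rat] at h
  exact h

theorem exists_goodBasis_of_not_dvd (h : ¬ ℓ ∣ N) : Nonempty (GoodBasis ℓ N jq) :=
  exists_goodBasis_jq (hasFullDegree_rat N) (hasFullDegree_zmod N ℓ h)

theorem saturated_fin (h : ¬ ℓ ∣ N) : Saturated (jFull_mem_intSeries N ℓ) :=
  saturated_of_goodBasis N ℓ _ aeval_jq_injective (exists_goodBasis_of_not_dvd N ℓ h).some

theorem saturated_inf (h : ¬ ℓ ∣ N) : Saturated (jFullInv_mem_intSeries N ℓ) := by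
  have B := (exists_goodBasis_of_not_dvd N ℓ h).some
  have hred : Function.Injective (aeval (R := ZMod ℓ) (redSeries ℓ (ZMod ℓ) ⟨jq, B.mem⟩)) := by
    rw [redSeries_jq]; exact aeval_jqModC_injective
  have B' := (B.inv aeval_jq_injective hred (jqInv_mem_intSeries ℓ)).some
  exact saturated_of_goodBasis N ℓ _ (aeval_inv_injective aeval_jq_injective) B'

end Charts

end Fermat.Agent.Igusa

end
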