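import Mathlib.RingTheory.Artinian.Instances
import Mathlib.RingTheory.Polynomial.Resultant.Basic
import Mathlib.Tactic

/-!
# Orbits cut out by a minimal polynomial over a line

`L/k` fields, `t ∈ L` transcendental, `v : P → L` injective with `∏ (X - v c) ∈ k[t][X]`.
For families `x : P → L` with Lagrange interpolation in `k[t][X]` we get `x o ∈ k(t, v o)`, and
products of `x` over the orbit of `o` lie in `k(t)`.
-/

set_option autoImplicit false

noncomputable section

namespace Fermat.Agent.Igusa

open Polynomial

variable {k L : Type*} [Field k] [Field L] [Algebra k L] {P : Type*} [Fintype P]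

open scoped Classical in
/-- The interpolation polynomial of `x` at the nodes `v`. -/
def interpPoly (v x : P → L) : L[X] :=
  ∑ c, C (x c) * ∏ c' ∈ Finset.univ.erase c, (X - C (v c'))

open scoped Classical in
theorem eval_derivative_prodPoly (v : P → L) (c : P) :
    (derivative (∏ c, (X - C (v c)))).eval (v c) =
      ∏ c' ∈ Finset.univ.erase c, (v c - v c') := by
  rw [Polynomial.derivative_prod_finset, Polynomial.eval_finsetSum, Finset.sum_eq_single c]
  · simp [Polynomial.eval_prod]
  · intro b _ hb
    rw [Polynomial.eval_mul, Polynomial.eval_prod,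
      Finset.prod_eq_zero (Finset.mem_erase.mpr ⟨Ne.symm hb, Finset.mem_univ c⟩) (by simp),
      zero_mul]
  · simp

open scoped Classical in
theorem eval_interpPoly (v x : P → L) (c : P) :
    (interpPoly v x).eval (v c) = x c * ∏ c' ∈ Finset.univ.erase c, (v c - v c') := by
  rw [interpPoly, Polynomial.eval_finsetSum, Finset.sum_eq_single c]
  · simp [Polynomial.eval_prod]
  · intro b _ hb
    rw [Polynomial.eval_mul, Polynomial.eval_prod,
      Finset.prod_eq_zero (Finset.mem_erase.mpr ⟨Ne.symm hb, Finset.mem_univ c⟩) (by simp),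
      mul_zero]
  · simp

variable (k) in
/-- `k[t]` inside `L`, as a coefficient ring. -/
abbrev evLine (t : L) : k[X] →+* L := (aeval (R := k) t).toRingHom

theorem evLine_mem_adjoin (t : L) (p : k[X]) :
    evLine k t p ∈ IntermediateField.adjoin k ({t} : Set L) := by
  change aeval t p ∈ _
  rw [aeval_eq_sum_range]
  exact sum_mem fun n _ => IntermediateField.smul_mem _
    (pow_mem (IntermediateField.mem_adjoin_simple_self k t) n)

/-- Coefficients in `k[t]` lie in the field `k(t)`. -/
theorem lifts_evLine_le {t : L} {p : L[X]} (hp : p ∈ lifts (evLine k t)) :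
    p ∈ lifts (algebraMap (IntermediateField.adjoin k ({t} : Set L)) L) := by
  rw [lifts_iff_coeff_lifts] at hp ⊢
  intro n
  obtain ⟨q, hq⟩ := hp n
  exact ⟨⟨_, evLine_mem_adjoin t q⟩, hq⟩

/-- An element of `k(t)` integral over `k[t]` lies in `k[t]`. -/
theorem exists_evLine_eq {t : L} (ht : Function.Injective (evLine k t)) {x : L}
    (hx : x ∈ IntermediateField.adjoin k ({t} : Set L)) (hint : (evLine k t).IsIntegralElem x) :
    ∃ p, evLine k t p = x := by
  classical
  obtain ⟨r, s, hrs⟩ := (IntermediateField.mem_adjoin_simple_iff k x).mp hx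
  rcases eq_or_ne s 0 with rfl | hs
  · exact ⟨0, by simp [hrs]⟩
  obtain ⟨r', s', c, hrel, hr, hs'⟩ := UniqueFactorizationMonoid.exists_reduced_factors' r s hs
  have hsne : s' ≠ 0 := fun h0 => hs (by rw [← hs', h0, mul_zero])
  have hcne : c ≠ 0 := fun h0 => hs (by rw [← hs', h0, zero_mul])
  have hev : evLine k t s' ≠ 0 := fun h0 => hsne (ht (by rw [h0, map_zero]))
  have hxr : x * evLine k t s' = evLine k t r' := by
    rw [hrs, ← hr, ← hs', map_mul, map_mul]
    have hc : aeval t c ≠ 0 := fun h0 => hcne (ht (by rw [map_zero]; exact h0))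
    change aeval t c * aeval t r' / (aeval t c * aeval t s') * aeval t s' = aeval t r'
    have hev' : aeval t s' ≠ 0 := hev
    field_simp
  obtain ⟨p, hp, hp0⟩ := hint
  set n := p.natDegree with hn
  have hdvd : s' ∣ r' ^ n := by
    refine ⟨-∑ i ∈ Finset.range n, p.coeff i * r' ^ i * s' ^ (n - i - 1), ht ?_⟩
    have h1 := congrArg (· * evLine k t s' ^ n) hp0
    simp only [zero_mul, eval₂_eq_sum_range, Finset.sum_range_succ, add_mul, Finset.sum_mul] at h1
    rw [← hn, hp.coeff_natDegree, map_one, one_mul, ← mul_pow, hxr, ← map_pow] at h1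
    rw [mul_neg, map_neg, map_mul, map_sum, Finset.mul_sum, eq_neg_iff_add_eq_zero, add_comm]
    refine Eq.trans ?_ h1
    rw [map_pow (evLine k t) r' n]
    congr 1
    refine Finset.sum_congr rfl fun i hi => ?_
    have hi' : i < n := Finset.mem_range.mp hi
    rw [show n = i + ((n - i - 1) + 1) by omega, pow_add, pow_succ]
    rw [show i + ((n - i - 1) + 1) - i - 1 = n - i - 1 by omega]
    simp only [map_mul, map_pow]
    rw [show p.coeff i = p.coeff i from rfl, ← hxr]
    ring
  have hunit : IsUnit s' := (hrel.symm.pow_right (n := n)).isUnit_of_dvd hdvd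
  obtain ⟨u, hu⟩ := hunit
  refine ⟨r' * ↑u⁻¹, ?_⟩
  rw [map_mul, ← hxr, mul_assoc, ← map_mul, ← hu, Units.mul_inv, map_one, mul_one]

/-- The orbit of `o`: roots of the minimal polynomial of `v o` over `k(t)`. -/
structure OrbitData (k : Type*) {L : Type*} [Field k] [Field L] [Algebra k L]
    {P : Type*} [Fintype P] (t : L) (v : P → L) (o : P) (S : Finset P) : Prop where
  finite : FiniteDimensional (IntermediateField.adjoin k ({t} : Set L))
    (IntermediateField.adjoin (IntermediateField.adjoin k ({t} : Set L)) ({v o} : Set L))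
  finrank_eq : Module.finrank (IntermediateField.adjoin k ({t} : Set L))
    (IntermediateField.adjoin (IntermediateField.adjoin k ({t} : Set L)) ({v o} : Set L)) = S.card
  mem_self : o ∈ S
  interp : ∀ x : P → L, interpPoly v x ∈ lifts (evLine k t) →
    x o ∈ IntermediateField.adjoin (IntermediateField.adjoin k ({t} : Set L)) ({v o} : Set L) ∧
      ∏ c ∈ S, x c ∈ IntermediateField.adjoin k ({t} : Set L)

/-- A monic divisor of `∏ (X - v c)` splits with roots the `v c` which it kills. -/
private theorem splits_and_roots_of_map_dvd {B L : Type*} [Field B] [Field L] [Algebra B L]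
    {P : Type*}
    [Fintype P] [DecidableEq L] {v : P → L} (hv : Function.Injective v) {μ : B[X]} (hμm : μ.Monic)
    (hdvd : μ.map (algebraMap B L) ∣ ∏ c, (X - C (v c))) :
    (μ.map (algebraMap B L)).Splits ∧ (μ.map (algebraMap B L)).roots =
      (Finset.univ.filter fun c => aeval (v c) μ = 0).val.map v := by
  classical
  set μL := μ.map (algebraMap B L) with hμL
  have hprod0 : (∏ c, (X - C (v c))) ≠ 0 := (monic_prod_X_sub_C v Finset.univ).ne_zero
  have hsplitP : (∏ c, (X - C (v c))).Splits := Splits.prod fun c _ => Splits.X_sub_C _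
  have hsplit : μL.Splits := hsplitP.of_dvd hprod0 hdvd
  set S : Finset P := Finset.univ.filter (fun c => aeval (v c) μ = 0) with hS
  have hrootsP : (∏ c, (X - C (v c))).roots = Finset.univ.val.map v := by
    rw [roots_prod _ _ hprod0]
    simp
  have hle : μL.roots ≤ Finset.univ.val.map v := hrootsP ▸ roots.le_of_dvd hprod0 hdvd
  have hnd : (Finset.univ.val.map v).Nodup := Finset.univ.nodup.map hv
  have hroots : μL.roots = S.val.map v := by
    refine (Multiset.Nodup.ext (Multiset.nodup_of_le hle hnd) (S.nodup.map hv)).mpr fun y => ?_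
    rw [mem_roots (hμm.map _).ne_zero, IsRoot.def, eval_map, ← aeval_def]
    constructor
    · intro hy
      have : y ∈ Finset.univ.val.map v := Multiset.mem_of_le hle (by
        rw [mem_roots (hμm.map _).ne_zero, IsRoot.def, eval_map, ← aeval_def]; exact hy)
      obtain ⟨c, -, rfl⟩ := Multiset.mem_map.mp this
      exact Multiset.mem_map.mpr ⟨c, Finset.mem_filter.mpr ⟨Finset.mem_univ c, hy⟩, rfl⟩
    · intro hy
      obtain ⟨c, hc, rfl⟩ := Multiset.mem_map.mp hy
      exact (Finset.mem_filter.mp hc).2
  exact ⟨hsplit, hroots⟩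

theorem exists_orbitData {t : L} {v : P → L} (hv : Function.Injective v) (o : P)
    (hΦ : (∏ c, (X - C (v c))) ∈ lifts (evLine k t)) : ∃ S, OrbitData k t v o S := by
  classical
  set B := IntermediateField.adjoin k ({t} : Set L) with hB
  obtain ⟨Φ, hΦmap, -, hΦm⟩ :=
    lifts_and_natDegree_eq_and_monic (lifts_evLine_le hΦ) (monic_prod_X_sub_C v Finset.univ)
  have hΦo : aeval (v o) Φ = 0 := by
    rw [aeval_def, ← eval_map, hΦmap, eval_prod]
    exact Finset.prod_eq_zero (Finset.mem_univ o) (by simp)
  have hint : IsIntegral B (v o) := ⟨Φ, hΦm, hΦo⟩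
  -- The orbit `S` is the set of conjugates of `v o`, the roots of its minimal polynomial `μ`.
  set μ := minpoly B (v o) with hμ
  have hμm : μ.Monic := minpoly.monic hint
  set μL := μ.map (algebraMap B L) with hμL
  set S : Finset P := Finset.univ.filter (fun c => aeval (v c) μ = 0) with hS
  obtain ⟨hsplit, hroots⟩ : μL.Splits ∧ μL.roots = S.val.map v :=
    splits_and_roots_of_map_dvd hv hμm
      (by rw [← hΦmap]; exact Polynomial.map_dvd _ (minpoly.dvd B _ hΦo))
  have hcard : μ.natDegree = S.card := by
    rw [← natDegree_map (algebraMap B L) (p := μ), ← hμL, hsplit.natDegree_eq_card_roots, hroots,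
      Multiset.card_map, Finset.card_def]
  refine ⟨S, IntermediateField.adjoin.finiteDimensional hint,
    (IntermediateField.adjoin.finrank hint).trans hcard,
    Finset.mem_filter.mpr ⟨Finset.mem_univ o, minpoly.aeval B (v o)⟩, ?_⟩
  intro x hI'
  obtain ⟨J, hJ⟩ := (mem_lifts _).mp (lifts_evLine_le hI')
  -- Lagrange interpolation writes `x c` as `J / Φ'` at `v c`, rational in `v o` for `c = o`.
  have hD : ∀ c, aeval (v c) (derivative Φ) = ∏ c' ∈ Finset.univ.erase c, (v c - v c') := by
    intro c
    rw [aeval_def, ← eval_map, ← derivative_map, hΦmap, eval_derivative_prodPoly]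
  have hJc : ∀ c, aeval (v c) J = x c * aeval (v c) (derivative Φ) := by
    intro c
    rw [hD, aeval_def, ← eval_map, hJ, eval_interpPoly]
  have hD0 : ∀ c, aeval (v c) (derivative Φ) ≠ 0 := fun c => by
    rw [hD]
    exact Finset.prod_ne_zero_iff.mpr fun c' hc' h0 =>
      (Finset.ne_of_mem_erase hc') (hv (sub_eq_zero.mp h0)).symm
  set E := IntermediateField.adjoin B ({v o} : Set L) with hE
  have hxo : x o ∈ E := by
    have hmem : ∀ q : B[X], aeval (v o) q ∈ E := fun q => by
      rw [aeval_eq_sum_range]
      exact sum_mem fun i _ => E.smul_mem (pow_mem (IntermediateField.mem_adjoin_simple_self B _) i)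
    rw [show x o = aeval (v o) J / aeval (v o) (derivative Φ) by
      rw [hJc]; field_simp [hD0 o]]
    exact div_mem (hmem _) (hmem _)
  refine ⟨hxo, ?_⟩
  obtain ⟨h, hh⟩ : ∃ h : B[X], aeval (v o) h = x o := by
    have : x o ∈ Algebra.adjoin B ({v o} : Set L) := by
      rw [← IntermediateField.adjoin_simple_toSubalgebra_of_isAlgebraic hint.isAlgebraic]
      exact hxo
    rw [Algebra.adjoin_singleton_eq_range_aeval] at this
    exact this
  -- The same polynomial `h` gives `x c` on all of `S`.
  have hdv : μ ∣ derivative Φ * h - J := minpoly.dvd B _ (by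
    rw [map_sub, map_mul, hh, hJc, mul_comm, sub_self])
  have hxc : ∀ c ∈ S, aeval (v c) h = x c := by
    intro c hc
    obtain ⟨q, hq⟩ := hdv
    have h1 : aeval (v c) (derivative Φ * h - J) = 0 := by
      rw [hq, map_mul, (Finset.mem_filter.mp hc).2, zero_mul]
    rw [map_sub, map_mul, hJc, mul_comm (x c), ← mul_sub] at h1
    exact sub_eq_zero.mp ((mul_eq_zero.mp h1).resolve_left (hD0 c))
  -- So the product over `S` is a resultant, which lies in the base.
  have hres := resultant_eq_prod_eval μL (h.map (algebraMap B L)) h.natDegree natDegree_map_le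
    hsplit
  rw [hμL, natDegree_map, resultant_map_map, ← hμL, (hμm.map _).leadingCoeff, one_pow, one_mul,
    hroots, Multiset.map_map] at hres
  have : ∏ c ∈ S, x c = algebraMap B L (resultant μ h μ.natDegree h.natDegree) := by
    rw [hres, Finset.prod_eq_multiset_prod]
    refine congrArg _ (Multiset.map_congr rfl fun c hc => ?_)
    rw [Function.comp_apply, eval_map, ← aeval_def, hxc c hc]
  rw [this]
  exact (resultant μ h μ.natDegree h.natDegree).2

/-- Products over the orbit of an integral family lie in `k[t]`. -/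
theorem OrbitData.exists_prod_eq {t : L} {v : P → L} {o : P} {S : Finset P}
    (h : OrbitData k t v o S) (ht : Function.Injective (evLine k t))
    {x : P → L} (hx : interpPoly v x ∈ lifts (evLine k t))
    (hX : (∏ c, (X - C (x c))) ∈ lifts (evLine k t)) :
    ∃ p, evLine k t p = ∏ c ∈ S, x c := by
  refine exists_evLine_eq ht (h.interp x hx).2 ?_
  obtain ⟨Q, hQmap, -, hQm⟩ :=
    lifts_and_natDegree_eq_and_monic hX (monic_prod_X_sub_C x Finset.univ)
  let : Algebra k[X] L := (evLine k t).toAlgebra
  refine IsIntegral.prod (R := k[X]) x fun c _ => ⟨Q, hQm, ?_⟩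
  rw [← eval_map, RingHom.algebraMap_toAlgebra, hQmap, eval_prod]
  exact Finset.prod_eq_zero (Finset.mem_univ c) (by simp)

end Fermat.Agent.Igusa

end
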