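import Fermat.Agent.Igusa.CuspReduction
import Fermat.Agent.Igusa.Orbit
import Fermat.Agent.Igusa.LaurentExt

/-!
# Symmetric functions of reduced translates have coefficients in `k[j]`
-/

set_option autoImplicit false

noncomputable section

open UpperHalfPlane hiding I
open Polynomial

namespace Fermat.Agent.Igusa

open ModularCurve Fermat.Agent.ModFun

variable {k : Type*} [Field k] {V : Subring ℂ} {π : V →+* k} {N : ℕ} [NeZero N]

variable (k N) in
/-- `J(q)` for `q = t ^ N`. -/
abbrev jt : LaurentSeries k := ModularCurve.qExpand k N (jqModC k)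

/-- A polynomial at `j (t ^ N)` is its expansion at `j` in the variable `t ^ N`. -/
theorem evLine_jt (p : k[X]) :
    evLine k (jt k N) p = ModularCurve.qExpand k N (aeval (jqModC k) p) := by
  change aeval (qExpandAlgHomC k N (jqModC k)) p = _
  rw [aeval_algHom_apply]
  rfl

/-- `j (t ^ N)` is transcendental over the constants. -/
theorem evLine_jt_injective : Function.Injective (evLine k (jt k N)) := by
  intro p q h
  rw [evLine_jt, evLine_jt] at h
  exact aeval_jqModC_injective (qExpand_injective N h)

theorem laurentExp_evJC (P : ℂ[X]) :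
    laurentExp N (evJC N P) = aeval (ModularCurve.qExpand ℂ N (jqModC ℂ)) P := by
  rw [evJC, ← aeval_algHom_apply, laurentExp_jC_width]

theorem coeff_mem_of_laurentExp_evJC {P : ℂ[X]}
    (hP : laurentExp N (evJC N P) ∈ serV V) : ∀ i, P.coeff i ∈ V := by
  refine coeff_mem_of_aeval_mem ?_
  have h1 : ∀ n : ℤ, (aeval (jqModC ℂ) P).coeff n ∈ V := by
    intro n
    have h := coeff_mem_of_mem_serV hP ((N : ℤ) * n)
    have h2 : aeval (ModularCurve.qExpand ℂ N (jqModC ℂ)) P =
        ModularCurve.qExpand ℂ N (aeval (jqModC ℂ) P) := evLine_jt (k := ℂ) P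
    rwa [laurentExp_evJC, h2, qExpand_coeff_mul] at h
  refine RingHom.mem_range.mpr ⟨HahnSeries.mk (fun n => ⟨_, h1 n⟩)
    ((aeval (jqModC ℂ) P).isPWO_support.mono fun n hn => ?_), ?_⟩
  · simp only [Function.mem_support, HahnSeries.mem_support, ne_eq] at hn ⊢
    exact fun h0 => hn (Subtype.ext h0)
  · ext n; rfl

theorem red_laurentExp_evJC (Pv : Polynomial V) :
    Red π (laurentExp N (evJC N (Pv.map V.subtype))) (evLine k (jt k N) (Pv.map π)) := by
  induction Pv using Polynomial.induction_on' with
  | add p q hp hq =>
    rw [Polynomial.map_add, Polynomial.map_add, map_add, map_add, map_add]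
    exact hp.add hq
  | monomial n c =>
    rw [Polynomial.map_monomial, Polynomial.map_monomial, laurentExp_evJC, aeval_monomial,
      algebraMap_laurent_eq_C]
    change Red π _ (aeval (jt k N) (monomial n (π c)))
    rw [aeval_monomial, algebraMap_laurent_eq_C]
    exact (red_C c).mul ((red_jqModC.qExpand N).pow n)

variable (V N) in
/-- Elements of `CuspAlg N` with expansion coefficients in `V`. -/
def intCusp : Subring (CuspAlg N) := (serV V).comap (laurentExp N).toRingHom

variable (π N) in
/-- The reduced expansion on `intCusp`. -/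
def rho : intCusp V N →+* LaurentSeries k :=
  (redV π).comp (((laurentExp N).toRingHom.comp (intCusp V N).subtype).codRestrict (serV V)
    fun f => Subring.mem_comap.mp f.2)

theorem red_rho (f : intCusp V N) : Red π (laurentExp N (f : CuspAlg N)) (rho π N f) :=
  ⟨Subring.mem_comap.mp f.2, rfl⟩

theorem map_rho_mem_lifts (p : Polynomial (intCusp V N))
    (hp : p.map (intCusp V N).subtype ∈ lifts (evJC N).toRingHom) :
    p.map (rho π N) ∈ lifts (evLine k (jt k N)) := by
  rw [lifts_iff_coeff_lifts] at hp ⊢
  intro n
  obtain ⟨P, hP⟩ := hp n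
  rw [coeff_map] at hP
  have hP' : evJC N P = ((p.coeff n : intCusp V N) : CuspAlg N) := hP
  have hmem : laurentExp N (evJC N P) ∈ serV V := by
    rw [hP']; exact Subring.mem_comap.mp (p.coeff n).2
  obtain ⟨Pv, hPv⟩ : ∃ Pv : Polynomial V, Pv.map V.subtype = P := by
    have : P ∈ lifts V.subtype := (lifts_iff_coeff_lifts P).mpr fun i =>
      ⟨⟨_, coeff_mem_of_laurentExp_evJC hmem i⟩, rfl⟩
    exact (mem_lifts _).mp this
  refine ⟨Pv.map π, ?_⟩
  rw [coeff_map]
  refine Red.unique (π := π) ?_ (red_rho (p.coeff n))
  rw [← hP', ← hPv]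
  exact red_laurentExp_evJC Pv

/-- The translate as an element of `intCusp`. -/
def trI (g : intHol V N) (c : Coset N) : intCusp V N :=
  ⟨tr N c (g : Hol N), Subring.mem_comap.mpr (mem_intHol.mp g.2 c)⟩

theorem rho_trI (g : intHol V N) (c : Coset N) : rho π N (trI g c) = rCusp π c g :=
  Red.unique (red_rho (trI g c)) (red_rCusp g c)

attribute [local instance] Fintype.ofFinite

/-- The product of `X - g_c` over the reduced translates of `g` has coefficients in `k[j]`. -/
theorem prod_rCusp_mem_lifts (g : intHol V N) :
    (∏ c : Coset N, (X - C (rCusp π c g))) ∈ lifts (evLine k (jt k N)) := by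
  have h := map_rho_mem_lifts (π := π) (∏ c : Coset N, (X - C (trI g c))) ?_
  · simpa only [Polynomial.map_prod, Polynomial.map_sub, map_X, map_C, rho_trI] using h
  · have h2 := trPoly_mem_lifts (g : Hol N)
    rw [trPoly] at h2
    simp only [Polynomial.map_prod, Polynomial.map_sub, map_X, map_C]
    exact h2

/-- The interpolation polynomial of reduced translates has coefficients in `k[j]`. -/
theorem interp_rCusp_mem_lifts (g x : intHol V N) :
    interpPoly (fun c => rCusp π c x) (fun c => rCusp π c g) ∈ lifts (evLine k (jt k N)) := by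
  classical
  have h := map_rho_mem_lifts (π := π)
    (∑ c : Coset N, C (trI g c) * ∏ c' ∈ Finset.univ.erase c, (X - C (trI x c'))) ?_
  · rw [interpPoly]
    simp only [Polynomial.map_sum, Polynomial.map_mul, Polynomial.map_prod, Polynomial.map_sub,
      map_X, map_C, rho_trI] at h
    convert h
  · have h2 := interpSum_mem_lifts (g : Hol N) (x : Hol N)
    rw [interpSum] at h2
    simp only [Polynomial.map_sum, Polynomial.map_mul, Polynomial.map_prod, Polynomial.map_sub,
      map_X, map_C]
    convert h2 <;> rfl

end Fermat.Agent.Igusa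

end
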