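import Fermat.Agent.Igusa.CuspUnit
import Fermat.Prelude.Def_ModularCurve_X0ModL

/-!
# Orders of the expansions of `j`, `Δ` and their twists
-/

set_option autoImplicit false

noncomputable section

namespace Fermat.Agent.Igusa

open ModularCurve Fermat.Agent.ModFun Polynomial

variable {K : Type*} [Field K]

/-- `x` has order exactly `n`. -/
theorem order_eq_of_coeff {x : LaurentSeries K} {n : ℤ} (h1 : x.coeff n ≠ 0)
    (h2 : ∀ m < n, x.coeff m = 0) : x.order = n := by
  refine le_antisymm (HahnSeries.order_le_of_coeff_ne_zero h1) (not_lt.mp fun hl => ?_)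
  have hx : x ≠ 0 := fun h0 => h1 (by rw [h0]; rfl)
  exact HahnSeries.coeff_order_eq_zero.not.mpr hx (h2 _ hl)

/-- `q ↦ q ^ n` multiplies orders by `n`. -/
theorem order_qExpand {x : LaurentSeries K} (hx : x ≠ 0) (n : ℕ) [NeZero n] :
    (ModularCurve.qExpand K n x).order = (n : ℤ) * x.order := by
  refine order_eq_of_coeff ?_ fun m hm => ?_
  · rw [qExpand_coeff_mul]
    exact HahnSeries.coeff_order_eq_zero.not.mpr hx
  · by_cases h : (n : ℤ) ∣ m
    · obtain ⟨i, rfl⟩ := h
      rw [qExpand_coeff_mul]
      refine HahnSeries.coeff_eq_zero_of_lt_order ?_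
      exact lt_of_mul_lt_mul_left hm (Int.natCast_nonneg n)
    · exact qExpand_coeff_of_not_dvd n x h

theorem twist_ne_zero (u : Kˣ) {x : LaurentSeries K} (hx : x ≠ 0) : twist u x ≠ 0 := by
  intro h
  refine hx (HahnSeries.ext (funext fun m => ?_))
  have := congrArg (fun z => z.coeff m) h
  simpa [coeff_twist, zpow_ne_zero] using this

/-- Twisting preserves the order. -/
theorem order_twist (u : Kˣ) {x : LaurentSeries K} (hx : x ≠ 0) :
    (twist u x).order = x.order := by
  refine order_eq_of_coeff ?_ fun m hm => ?_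
  · rw [coeff_twist]
    exact mul_ne_zero (Units.ne_zero _) (HahnSeries.coeff_order_eq_zero.not.mpr hx)
  · rw [coeff_twist, HahnSeries.coeff_eq_zero_of_lt_order hm, mul_zero]

theorem order_qExpand_twist (u : Kˣ) {x : LaurentSeries K} (hx : x ≠ 0) (n : ℕ) [NeZero n] :
    (ModularCurve.qExpand K n (twist u x)).order = (n : ℤ) * x.order := by
  rw [order_qExpand (twist_ne_zero u hx), order_twist u hx]

theorem qExpand_twist_ne_zero (u : Kˣ) {x : LaurentSeries K} (hx : x ≠ 0) (n : ℕ) [NeZero n] :
    ModularCurve.qExpand K n (twist u x) ≠ 0 :=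
  fun h => twist_ne_zero u hx (qExpand_injective n (by rw [h, map_zero]))

theorem order_single_mul_ofPowerSeries (n : ℤ) (p : PowerSeries K)
    (hp : PowerSeries.constantCoeff p = 1) :
    (HahnSeries.single n (1 : K) * HahnSeries.ofPowerSeries ℤ K p).order = n := by
  refine order_eq_of_coeff ?_ fun m hm => ?_
  · rw [HahnSeries.coeff_single_mul, one_mul, sub_self,
      show (0 : ℤ) = ((0 : ℕ) : ℤ) from rfl, HahnSeries.ofPowerSeries_apply_coeff,
      PowerSeries.coeff_zero_eq_constantCoeff, hp]
    exact one_ne_zero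
  · rw [HahnSeries.coeff_single_mul, one_mul]
    exact ofPowerSeries_coeff_of_neg p (by omega)

theorem constantCoeff_map_eq_one {p : PowerSeries ℤ} (hp : PowerSeries.constantCoeff p = 1) :
    PowerSeries.constantCoeff (p.map (Int.castRingHom K)) = 1 := by
  rw [← PowerSeries.coeff_zero_eq_constantCoeff, PowerSeries.coeff_map,
    PowerSeries.coeff_zero_eq_constantCoeff, hp, map_one]

/-- The expansion of `Δ` has order `1`. -/
theorem order_deltaSer : (deltaSer K).order = 1 := by
  rw [deltaSer_eq]
  exact order_single_mul_ofPowerSeries _ _ (constantCoeff_map_eq_one constantCoeff_dedekindEtaUnit)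

/-- The expansion of `1/Δ` has order `-1`. -/
theorem order_deltaInvSer : (deltaInvSer K).order = -1 := by
  rw [deltaInvSer]
  exact order_single_mul_ofPowerSeries _ _
    (constantCoeff_map_eq_one constantCoeff_dedekindEtaUnitInv)

/-- The expansion of `j` has order `-1`. -/
theorem order_jqModC : (jqModC K).order = -1 :=
  order_eq_of_coeff (by rw [coeff_jqModC_neg_one]; exact one_ne_zero)
    fun _ hm => coeff_jqModC_of_lt K hm

/-- The expansion of the discriminant is nonzero. -/
theorem deltaSer_ne_zero : deltaSer K ≠ 0 :=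
  fun h => one_ne_zero (α := LaurentSeries K) (by rw [← deltaSer_mul_inv K, h, zero_mul])

/-- The expansion of the inverse discriminant is nonzero. -/
theorem deltaInvSer_ne_zero : deltaInvSer K ≠ 0 :=
  fun h => one_ne_zero (α := LaurentSeries K) (by rw [← deltaSer_mul_inv K, h, mul_zero])

theorem order_C_mul {c : K} (hc : c ≠ 0) {x : LaurentSeries K} (hx : x ≠ 0) :
    (HahnSeries.C c * x).order = x.order := by
  rw [HahnSeries.order_mul (by rw [Ne, map_eq_zero]; exact hc) hx, HahnSeries.C_apply,
    HahnSeries.order_single hc, zero_add]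

/-- Order of `C c · qExpand E (twist u x) · qExpand N y`. -/
theorem order_unit_expansion {c : K} (hc : c ≠ 0) (u : Kˣ) {x y : LaurentSeries K}
    (hx : x ≠ 0) (hy : y ≠ 0) (E N : ℕ) [NeZero E] [NeZero N] :
    (HahnSeries.C c * ModularCurve.qExpand K E (twist u x) * ModularCurve.qExpand K N y).order =
        (E : ℤ) * x.order + (N : ℤ) * y.order ∧
      HahnSeries.C c * ModularCurve.qExpand K E (twist u x) * ModularCurve.qExpand K N y ≠ 0 := by
  have h1 : ModularCurve.qExpand K E (twist u x) ≠ 0 := qExpand_twist_ne_zero u hx E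
  have h2 : ModularCurve.qExpand K N y ≠ 0 := fun h =>
    hy (qExpand_injective N (by rw [h, map_zero]))
  have h3 : HahnSeries.C c * ModularCurve.qExpand K E (twist u x) ≠ 0 :=
    mul_ne_zero (by rw [Ne, map_eq_zero]; exact hc) h1
  refine ⟨?_, mul_ne_zero h3 h2⟩
  rw [HahnSeries.order_mul h3 h2, order_C_mul hc h1, order_qExpand_twist u hx, order_qExpand hy]

theorem order_prod {ι : Type*} (s : Finset ι) {f : ι → LaurentSeries K}
    (hf : ∀ i ∈ s, f i ≠ 0) : (∏ i ∈ s, f i).order = ∑ i ∈ s, (f i).order := by
  classical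
  induction s using Finset.induction_on with
  | empty => simp
  | insert a s ha ih =>
    rw [Finset.prod_insert ha, Finset.sum_insert ha,
      HahnSeries.order_mul (hf a (Finset.mem_insert_self a s))
        (Finset.prod_ne_zero_iff.mpr fun i hi => hf i (Finset.mem_insert_of_mem hi)),
      ih fun i hi => hf i (Finset.mem_insert_of_mem hi)]

theorem order_aeval_jqModC_le (p : K[X]) : (aeval (jqModC K) p).order ≤ 0 := by
  rcases eq_or_ne p 0 with rfl | hp
  · simp
  · refine le_trans (HahnSeries.order_le_of_coeff_ne_zero (g := -(p.natDegree : ℤ)) ?_) (by simp)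
    have : (Polynomial.eval₂ HahnSeries.C (jqModC K) p).coeff (-(p.natDegree : ℤ)) =
        p.leadingCoeff := Fermat.Agent.ModFun.coeff_aeval_jqModC_neg_natDegree p
    rw [aeval_def, algebraMap_laurent_eq_C, this]
    exact leadingCoeff_ne_zero.mpr hp

end Fermat.Agent.Igusa

end
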